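import Fermat.Agent.S59.LoSqC.H27.PlugJ

/-!
# S59 moonshot, cell (C) LO-SQ: leaf (R) VERBATIM with the classes at the level `M * q`
(helper27)

`H296.RSurjJ` lives at the level `q * M`, the objects of `S36.Mod3.Objs` at the level `M * q`.

* `levelCastJ h : JZero N ≃+ JZero N'` for `h : N = N'`, with its transport lemmas
  (`levelCastJ_smul`, `isKummerGen_levelCastJ`);
* `rSurj1E_of_rSurjJ_at` : as `rSurj1E_of_rSurjJ`, for a subgroup `F₁ ≤ J₀(M q)` all of whose
  classes have an `E`-rational Kummer generator (`H884.IsKummerGen (M * q) m (ι g) x`, i.e. the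
  body of `LoSqC.IsKummerGenE`) of slope `0`; the `J`-form is asked for the pull-back of `F₁`
  to the level `q * M`.
-/

set_option autoImplicit false
set_option linter.unusedSectionVars false
set_option linter.unusedVariables false
set_option linter.style.haveILetI false
set_option synthInstance.maxHeartbeats 400000
set_option maxHeartbeats 1600000

noncomputable section

namespace Fermat.Agent.S59.LoSqC.H27

open ModularCurve HahnSeries AlgebraicCurve
open Fermat.Agent.A2 Fermat.Agent.A2.Mod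
open Fermat.Agent.S24 Fermat.Agent.A2.H528 Fermat.Agent.A2.T1.H669 Fermat.Agent.Ribet.H884
open Fermat.Agent.S36 Fermat.Agent.S36.Eng

local notation "Q̄" => AlgebraicClosure ℚ

section Cast

/-- The identification `J₀(N) = J₀(N')` for `N = N'`. -/
def levelCastJ {N N' : ℕ} [NeZero N] [NeZero N'] (h : N = N') : JZero N ≃+ JZero N' := by
  subst h
  exact AddEquiv.refl _

theorem levelCastJ_smul {N N' : ℕ} [NeZero N] [NeZero N'] (h : N = N') (σ : Q̄ ≃ₐ[ℚ] Q̄)
    (x : JZero N) : levelCastJ h (σ • x) = σ • levelCastJ h x := by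
  subst h
  rfl

/-- Kummer generators along the cast: a Kummer generator is determined by its `t`-expansion. -/
theorem isKummerGen_levelCastJ_iff {N N' : ℕ} [NeZero N] [NeZero N'] (h : N = N') {m : ℕ}
    {f : FF N} {f' : FF N'} (hff' : (f' : LaurentSeries Q̄) = (f : LaurentSeries Q̄))
    (x : JZero N) :
    IsKummerGen N' m f' (levelCastJ h x) ↔ IsKummerGen N m f x := by
  subst h
  have e : f' = f := Subtype.ext hff'
  subst e
  exact Iff.rfl

/-- A function of level `N'` seen at the level `N = N'`. -/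
theorem exists_castFF {N N' : ℕ} [NeZero N] [NeZero N'] (h : N = N') (f' : FF N') :
    ∃ f : FF N, (f : LaurentSeries Q̄) = (f' : LaurentSeries Q̄) := by
  subst h
  exact ⟨f', rfl⟩

end Cast

section PlugAt

variable {P : ValuationSubring Q̄} {E : IntermediateField ℚ Q̄} {M q : ℕ}
  [NeZero M] [NeZero q] [NeZero (M * q)] [NeZero (q * M)] {w : A2.RE P E}
  {V₁' V₂' : ValuationSubring (A2.Mod.FE E (M * q))}
  {V₁ V₂ V₃ : ValuationSubring (A2.Mod.FE E (M * q * q))}
  {W' : A2.Mod.FE E (M * q) ≃ₐ[E] A2.Mod.FE E (M * q)}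
  {W : A2.Mod.FE E (M * q * q) ≃ₐ[E] A2.Mod.FE E (M * q * q)}

/-- **Leaf (R), VERBATIM, classes at the level `M * q`.** -/
theorem rSurj1E_of_rSurjJ_at (hS : Mod3.Std P E M q w)
    (hO : Mod3.Objs P E M q V₁' V₂' V₁ V₂ V₃ W' W)
    (T : TripleCtx (R := A2.RE P E) (E := E) w q (A2.Mod.αE E (M * q) q)
      (A2.Mod.βE E (M * q) q) (Mod3.x3E E M q) (A2.Mod.xE E M q) V₁ V₂ V₃ V₁' V₂')
    {m : ℕ} (hm : 0 < m) (hqm : ¬ q ∣ m)
    (F₁ : AddSubgroup (JZero (M * q)))
    (hF : ∀ x ∈ F₁, ∃ g : A2.Mod.FE E (M * q),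
      IsKummerGen (M * q) m (iota E (modularFunctionFieldFull (M * q)) g) x ∧
      SlopeZeroE P E (M * q) w m V₁' V₂' g)
    (hJ : Fermat.Agent.S59.LoSqC.H296.RSurjJ m q M P
      (F₁.comap (levelCastJ (Nat.mul_comm q M)).toAddMonoidHom)) :
    Fermat.Agent.S59.LoSqC.H987.RSurj1E (A2.RE P E) E m V₁' V₂' := by
  refine rSurj1E_of_rSurjJ hS hO T hm hqm _ hJ (fun x hx => ?_)
  have hx' : levelCastJ (Nat.mul_comm q M) x ∈ F₁ := hx
  obtain ⟨g, hg, hsl⟩ := hF _ hx'
  obtain ⟨f', hf'⟩ := exists_castFF (Nat.mul_comm q M)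
    (iota E (modularFunctionFieldFull (M * q)) g)
  refine ⟨f', g, ?_, ?_, hsl⟩
  · exact (isKummerGen_levelCastJ_iff (Nat.mul_comm q M) hf'.symm x).1 hg
  · rw [hf']
    rfl

end PlugAt

end Fermat.Agent.S59.LoSqC.H27

end
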