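import Fermat.Agent.S59.LoSqC.H27.SurjE

/-!
# S59 moonshot, cell (C) LO-SQ, adapter SURJ-E: SERIES form (helper27)

The `J`-side of the count lives at a level `N'` (`q * M'` in `H296.RSurjJ`), the `E`-side at the
level `N` of `S36.Mod3.Objs` (`M * q`); `N' = N` only propositionally.  The two sides are linked
by an equality of `t`-expansions in `ℚ̄((t))`, as in `H232.depthE_one_of_splitGen_series`.

* `exists_kummerGen_cast` : transport of classes and Kummer generators along `N = N'`;
* `SurjJS`                : the `J`-form input of SURJ-E in series form;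
* `surjJ_of_surjJS`       : `SurjJS A E m M N' N w V V₀ → SurjJ A E m M N w V V₀`.
-/

set_option autoImplicit false
set_option linter.unusedSectionVars false
set_option linter.unusedVariables false
set_option linter.style.haveILetI false
set_option synthInstance.maxHeartbeats 400000
set_option maxHeartbeats 1600000

noncomputable section

namespace Fermat.Agent.S59.LoSqC.H27

open ModularCurve HahnSeries AlgebraicCurve
open Fermat.Agent.A2 Fermat.Agent.A2.Mod
open Fermat.Agent.S24 Fermat.Agent.A2.H528 Fermat.Agent.A2.T1.H669 Fermat.Agent.Ribet.H884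
open Fermat.Agent.Ribet.H158.WallQ (PPowSeries)

local notation "Q̄" => AlgebraicClosure ℚ

section Cast

/-- **Transport along an equality of levels**: classes, Galois action, Kummer generators and
their reductions. -/
theorem exists_kummerGen_cast {N N' : ℕ} [NeZero N] [NeZero N'] (h : N = N')
    (A : ValuationSubring Q̄) :
    ∃ e : JZero N ≃+ JZero N',
      (∀ (σ : Q̄ ≃ₐ[ℚ] Q̄) (x : JZero N), e (σ • x) = σ • e x) ∧
      ∀ (m : ℕ) (f : FF N) (x : JZero N), IsKummerGen N m f x →
        ∃ f' : FF N', (f' : LaurentSeries Q̄) = (f : LaurentSeries Q̄) ∧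
          IsKummerGen N' m f' (e x) ∧
          (∀ r, IsRedInf N A f r → IsRedInf N' A f' r) ∧
          (∀ r, IsRedZero N A f r → IsRedZero N' A f' r) := by
  subst h
  exact ⟨AddEquiv.refl _, fun σ x => rfl, fun m f x hf => ⟨f, rfl, hf, fun r hr => hr,
    fun r hr => hr⟩⟩

end Cast

section Series

variable {A : ValuationSubring Q̄} {E : IntermediateField ℚ Q̄} {M q : ℕ} [NeZero M] [NeZero q]

/-- **The `J`-form input of SURJ-E, series form**: the classes and their Kummer generators live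
at the level `N'`, the `E`-rational generator `y` at the level `N`; `f'` is the Kummer generator
with the `t`-expansion of `y`. -/
def SurjJS (A : ValuationSubring Q̄) (E : IntermediateField ℚ Q̄) (m M N' N : ℕ) [NeZero N']
    [NeZero N] (w : Mod.RE A E) (V V₀ : ValuationSubring (Mod.FE E N)) : Prop :=
  ∀ ρ : LaurentSeries (kA A), PDivSeries m M ρ →
    ∃ (x : JZero N') (f f' : FF N') (r₁ r₂ : LaurentSeries (kA A)) (y : Mod.FE E N),
      IsKummerGen N' m f x ∧ IsRedInf N' A f r₁ ∧ IsRedZero N' A f r₂ ∧ PPowSeries m M r₁ ∧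
      (∃ (c : kA A) (s : modularFunctionFieldFullC (kA A) M), c ≠ 0 ∧ s ≠ 0 ∧
        r₂ = HahnSeries.C c * ρ * (s : LaurentSeries (kA A)) ^ m) ∧
      IsKummerGen N' m f' x ∧
      (f' : LaurentSeries Q̄) = coeffMap (algebraMap E Q̄) (y : LaurentSeries E) ∧
      SlopeZeroE A E N w m V V₀ y

/-- Series form ⟹ plain form. -/
theorem surjJ_of_surjJS {N N' : ℕ} [NeZero N] [NeZero N'] (h : N' = N) {m : ℕ}
    {w : Mod.RE A E} {V V₀ : ValuationSubring (Mod.FE E N)}
    (hJ : SurjJS A E m M N' N w V V₀) : SurjJ A E m M N w V V₀ := by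
  subst h
  intro ρ hρ
  obtain ⟨x, f, f', r₁, r₂, y, hf, h₁, h₂, hr₁, hr₂, hf', hfy, hsl⟩ := hJ ρ hρ
  have e : f' = iota E (modularFunctionFieldFull N') y := Subtype.ext hfy
  rw [e] at hf'
  exact ⟨x, f, r₁, r₂, y, hf, h₁, h₂, hr₁, hr₂, hf', hsl⟩

/-- `SurjJS` from the output of `H296.kummerGen_of_rSurjJ_one` (level `N'`) on a subgroup `I`
all of whose classes have a Kummer generator with the `t`-expansion of an element of `F_E(N)`
of slope `0`. -/
theorem surjJS_of_gen {N N' : ℕ} [NeZero N] [NeZero N'] {m : ℕ}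
    {w : Mod.RE A E} {V V₀ : ValuationSubring (Mod.FE E N)}
    (I : AddSubgroup (JZero N'))
    (hI : ∀ x ∈ I, ∃ (f' : FF N') (y : Mod.FE E N), IsKummerGen N' m f' x ∧
      (f' : LaurentSeries Q̄) = coeffMap (algebraMap E Q̄) (y : LaurentSeries E) ∧
      SlopeZeroE A E N w m V V₀ y)
    (hJ : ∀ ρ : LaurentSeries (kA A), PDivSeries m M ρ →
      ∃ x ∈ I, ∃ (f : FF N') (r₁ r₂ : LaurentSeries (kA A)),
        IsKummerGen N' m f x ∧ IsRedInf N' A f r₁ ∧ IsRedZero N' A f r₂ ∧ PPowSeries m M r₁ ∧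
        (∃ (c : kA A) (s : modularFunctionFieldFullC (kA A) M), c ≠ 0 ∧ s ≠ 0 ∧
          r₂ = HahnSeries.C c * ρ * (s : LaurentSeries (kA A)) ^ m)) :
    SurjJS A E m M N' N w V V₀ := by
  intro ρ hρ
  obtain ⟨x, hx, f, r₁, r₂, hf, h₁, h₂, hr₁, hr₂⟩ := hJ ρ hρ
  obtain ⟨f', y, hf', hfy, hsl⟩ := hI x hx
  exact ⟨x, f, f', r₁, r₂, y, hf, h₁, h₂, hr₁, hr₂, hf', hfy, hsl⟩

end Series

end Fermat.Agent.S59.LoSqC.H27

end
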