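import Fermat.Agent.S59.LoSqC.H27.PlugR
import Fermat.Agent.S59.LoSqC.H27.SurjES
import Fermat.Agent.S59.LoSqC.H296.RedSurj

/-!
# S59 moonshot, cell (C) LO-SQ: leaf (R) VERBATIM from the `J`-form `H296.RSurjJ` (helper27)

`rSurj1E_of_rSurjJ` : at the objects of `S36.Mod3.Objs` (with the context `Eng.TripleCtx`),
`H296.RSurjJ m q M P I` for a subgroup `I ≤ J₀(q M)` all of whose classes have a Kummer generator
with the `t`-expansion of an element of `F_E(M q)` of slope `0` modulo `m`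
⟹  `H987.RSurj1E (A2.RE P E) E m V₁' V₂'`.

Plugged: `H296.kummerGen_of_rSurjJ_one` (helper296), COND-PDIV (helper967), SURJ-E (helper27).
-/

set_option autoImplicit false
set_option linter.unusedSectionVars false
set_option linter.unusedVariables false
set_option linter.style.haveILetI false
set_option synthInstance.maxHeartbeats 400000
set_option maxHeartbeats 1600000

noncomputable section

namespace Fermat.Agent.S59.LoSqC.H27

open ModularCurve HahnSeries AlgebraicCurve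
open Fermat.Agent.A2 Fermat.Agent.A2.Mod
open Fermat.Agent.S24 Fermat.Agent.A2.H528 Fermat.Agent.A2.T1.H669 Fermat.Agent.Ribet.H884
open Fermat.Agent.S36 Fermat.Agent.S36.Eng

local notation "Q̄" => AlgebraicClosure ℚ

section PlugJ

variable {P : ValuationSubring Q̄} {E : IntermediateField ℚ Q̄} {M q : ℕ}
  [NeZero M] [NeZero q] [NeZero (M * q)] [NeZero (q * M)] {w : A2.RE P E}
  {V₁' V₂' : ValuationSubring (A2.Mod.FE E (M * q))}
  {V₁ V₂ V₃ : ValuationSubring (A2.Mod.FE E (M * q * q))}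
  {W' : A2.Mod.FE E (M * q) ≃ₐ[E] A2.Mod.FE E (M * q)}
  {W : A2.Mod.FE E (M * q * q) ≃ₐ[E] A2.Mod.FE E (M * q * q)}

/-- **Leaf (R), VERBATIM, from the `J`-form of R-SURJ1.** -/
theorem rSurj1E_of_rSurjJ (hS : Mod3.Std P E M q w)
    (hO : Mod3.Objs P E M q V₁' V₂' V₁ V₂ V₃ W' W)
    (T : TripleCtx (R := A2.RE P E) (E := E) w q (A2.Mod.αE E (M * q) q)
      (A2.Mod.βE E (M * q) q) (Mod3.x3E E M q) (A2.Mod.xE E M q) V₁ V₂ V₃ V₁' V₂')
    {m : ℕ} (hm : 0 < m) (hqm : ¬ q ∣ m)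
    (I : AddSubgroup (JZero (q * M)))
    (hJ : Fermat.Agent.S59.LoSqC.H296.RSurjJ m q M P I)
    (hI : ∀ x ∈ I, ∃ (f' : FF (q * M)) (y : A2.Mod.FE E (M * q)),
      IsKummerGen (q * M) m f' x ∧
      (f' : LaurentSeries Q̄) = coeffMap (algebraMap E Q̄) (y : LaurentSeries E) ∧
      SlopeZeroE P E (M * q) w m V₁' V₂' y) :
    Fermat.Agent.S59.LoSqC.H987.RSurj1E (A2.RE P E) E m V₁' V₂' :=
  rSurj1E_plug hS hO T hm hqm
    (surjJ_of_surjJS (mul_comm q M)
      (surjJS_of_gen I hI fun ρ hρ =>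
        Fermat.Agent.S59.LoSqC.H296.kummerGen_of_rSurjJ_one hm.ne' hS.q_prime hS.q_not_dvd
          hS.lies_over hJ hρ))

end PlugJ

end Fermat.Agent.S59.LoSqC.H27

end
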