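import Fermat.Agent.S59.LoSqC.H27.PullAbs
import Fermat.Agent.S36.H586.G1Approx

/-!
# S59 moonshot, cell (C) LO-SQ, adapter SURJ-E, abstract core (helper27)

Two distinct discrete valuation subrings `V₁`, `V₂` of a field `F` with a common uniformiser `w`
(the two vertical valuations `V∞`, `V₀` of `F_E(M q)` over an unramified base).

* `exists_approx_ord2`, `exists_approx_res2`, `exists_approx2` : weak approximation at two
  discrete valuation subrings (prescribed orders / residues of units / arbitrary targets);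
* `surj_core` : **normalisation of a Kummer generator**.  If
  `y ≡ w ^ j₁ · g₁ ^ m` at `V₁`, `y ≡ b · w ^ j₂ · g₂ ^ m` at `V₂` (`b` a unit of `V₂`) and the
  slope of `y` vanishes modulo `m` (`m ∣ ord₂ y - ord₁ y`), then there is `G ≠ 0` such that
  `g = y / (w ^ j₁ · G ^ m)` satisfies `g ≡ 1` at `V₁` and `g ≡ b` at `V₂`.
-/

set_option autoImplicit false
set_option linter.unusedSectionVars false
set_option linter.unusedVariables false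
set_option linter.style.haveILetI false

namespace Fermat.Agent.S59.LoSqC.H27

open Fermat.Agent.S36.Eng Fermat.Agent.S36.H586

section Approx2

variable {F : Type*} [Field F]

/-- The family of two valuation subrings. -/
def fam2 (V₁ V₂ : ValuationSubring F) : Fin 2 → ValuationSubring F := ![V₁, V₂]

theorem fam2_inc (V₁ V₂ : ValuationSubring F) [IsDiscreteValuationRing V₁]
    [IsDiscreteValuationRing V₂] (h12 : V₁ ≠ V₂) :
    ∀ i i' : Fin 2, i ≠ i' → ¬ fam2 V₁ V₂ i ≤ fam2 V₁ V₂ i' := by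
  intro i i' hii'
  fin_cases i <;> fin_cases i' <;> simp only [fam2] at *
  · exact absurd rfl hii'
  · exact not_le_of_dvr_ne V₁ V₂ h12
  · exact not_le_of_dvr_ne V₂ V₁ (Ne.symm h12)
  · exact absurd rfl hii'

/-- **Prescribed orders** at two distinct discrete valuation subrings. -/
theorem exists_approx_ord2 (V₁ V₂ : ValuationSubring F) [IsDiscreteValuationRing V₁]
    [IsDiscreteValuationRing V₂] (h12 : V₁ ≠ V₂) {t₁ t₂ : F}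
    (h₁0 : t₁ ≠ 0) (h₁ : t₁ ∈ V₁.nonunits) (hg₁ : ∀ f ∈ V₁.nonunits, f * t₁⁻¹ ∈ V₁)
    (h₂0 : t₂ ≠ 0) (h₂ : t₂ ∈ V₂.nonunits) (hg₂ : ∀ f ∈ V₂.nonunits, f * t₂⁻¹ ∈ V₂)
    (a b : ℤ) : ∃ g : F, g ≠ 0 ∧ IsOrd V₁ t₁ g a ∧ IsOrd V₂ t₂ g b := by
  have hinc := fam2_inc V₁ V₂ h12
  obtain ⟨T₁, hT₁, hT₁'⟩ := Fermat.Agent.S36.H586.Ap.exists_unif_multi (fam2 V₁ V₂) hinc 0
    (τ := t₁) h₁0 (val_lt_one_of_mem_nonunits h₁) (val_le_of_gen h₁0 hg₁)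
  obtain ⟨T₂, hT₂, hT₂'⟩ := Fermat.Agent.S36.H586.Ap.exists_unif_multi (fam2 V₁ V₂) hinc 1
    (τ := t₂) h₂0 (val_lt_one_of_mem_nonunits h₂) (val_le_of_gen h₂0 hg₂)
  have e10 : V₁.valuation T₁ = V₁.valuation t₁ := hT₁
  have e11 : V₂.valuation T₁ = 1 := hT₁' 1 (by decide)
  have e20 : V₁.valuation T₂ = 1 := hT₂' 0 (by decide)
  have e21 : V₂.valuation T₂ = V₂.valuation t₂ := hT₂
  have hT₁0 : T₁ ≠ 0 := ne_of_val e11
  have hT₂0 : T₂ ≠ 0 := ne_of_val e20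
  refine ⟨T₁ ^ a * T₂ ^ b, mul_ne_zero (zpow_ne_zero _ hT₁0) (zpow_ne_zero _ hT₂0), ?_, ?_⟩
  · unfold IsOrd
    rw [map_mul, map_zpow₀, map_zpow₀, e10, e20, one_zpow, mul_one]
  · unfold IsOrd
    rw [map_mul, map_zpow₀, map_zpow₀, e11, e21, one_zpow, one_mul]

/-- **Prescribed residues** (of units) at two distinct discrete valuation subrings. -/
theorem exists_approx_res2 (V₁ V₂ : ValuationSubring F) [IsDiscreteValuationRing V₁]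
    [IsDiscreteValuationRing V₂] (h12 : V₁ ≠ V₂) (g₁ g₂ : F)
    (hg₁ : V₁.valuation g₁ = 1) (hg₂ : V₂.valuation g₂ = 1) :
    ∃ g : F, PU V₁ (g / g₁) ∧ PU V₂ (g / g₂) := by
  have hinc := fam2_inc V₁ V₂ h12
  have m₁ : g₁ ∈ fam2 V₁ V₂ 0 := (ValuationSubring.valuation_le_one_iff V₁ _).1 hg₁.le
  have m₂ : g₂ ∈ fam2 V₁ V₂ 1 := (ValuationSubring.valuation_le_one_iff V₂ _).1 hg₂.le
  obtain ⟨L₁, hL₁, hL₁'⟩ := Fermat.Agent.S36.H586.Ap.exists_lift_multi (fam2 V₁ V₂) hinc 0 m₁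
  obtain ⟨L₂, hL₂, hL₂'⟩ := Fermat.Agent.S36.H586.Ap.exists_lift_multi (fam2 V₁ V₂) hinc 1 m₂
  obtain ⟨E₁, hE₁, hE₁'⟩ := Fermat.Agent.S36.H586.Ap.exists_idem_multi (fam2 V₁ V₂) hinc 0
  obtain ⟨E₂, hE₂, hE₂'⟩ := Fermat.Agent.S36.H586.Ap.exists_idem_multi (fam2 V₁ V₂) hinc 1
  have l10 : V₁.valuation L₁ ≤ 1 := (ValuationSubring.valuation_le_one_iff V₁ _).2 (hL₁ 0)
  have l11 : V₂.valuation L₁ ≤ 1 := (ValuationSubring.valuation_le_one_iff V₂ _).2 (hL₁ 1)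
  have l20 : V₁.valuation L₂ ≤ 1 := (ValuationSubring.valuation_le_one_iff V₁ _).2 (hL₂ 0)
  have l21 : V₂.valuation L₂ ≤ 1 := (ValuationSubring.valuation_le_one_iff V₂ _).2 (hL₂ 1)
  have d1 : V₁.valuation (L₁ - g₁) < 1 := hL₁'
  have d2 : V₂.valuation (L₂ - g₂) < 1 := hL₂'
  have s10 : V₁.valuation (E₁ - 1) < 1 := val_sub_comm_lt hE₁
  have s11 : V₂.valuation E₁ < 1 := hE₁' 1 (by decide)
  have s20 : V₁.valuation E₂ < 1 := hE₂' 0 (by decide)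
  have s21 : V₂.valuation (E₂ - 1) < 1 := val_sub_comm_lt hE₂
  refine ⟨E₁ * L₁ + E₂ * L₂, ?_, ?_⟩
  · refine pu_div_of_sub hg₁ ?_
    have e : E₁ * L₁ + E₂ * L₂ - g₁ = ((E₁ - 1) * L₁ + (L₁ - g₁)) + E₂ * L₂ := by ring
    rw [e]
    exact Valuation.map_add_lt _
      (Valuation.map_add_lt _ (val_mul_lt_one_of_lt_of_le s10 l10) d1)
      (val_mul_lt_one_of_lt_of_le s20 l20)
  · refine pu_div_of_sub hg₂ ?_
    have e : E₁ * L₁ + E₂ * L₂ - g₂ = E₁ * L₁ + ((E₂ - 1) * L₂ + (L₂ - g₂)) := by ring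
    rw [e]
    exact Valuation.map_add_lt _ (val_mul_lt_one_of_lt_of_le s11 l11)
      (Valuation.map_add_lt _ (val_mul_lt_one_of_lt_of_le s21 l21) d2)

/-- **Weak approximation** at two distinct discrete valuation subrings, arbitrary nonzero
targets: `G ∈ P₁ · (1 + 𝔪₁) ∩ P₂ · (1 + 𝔪₂)`. -/
theorem exists_approx2 (V₁ V₂ : ValuationSubring F) [IsDiscreteValuationRing V₁]
    [IsDiscreteValuationRing V₂] (h12 : V₁ ≠ V₂) {t₁ t₂ : F}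
    (ht₁ : UnifAt V₁ t₁) (ht₂ : UnifAt V₂ t₂) {P₁ P₂ : F} (hP₁ : P₁ ≠ 0) (hP₂ : P₂ ≠ 0) :
    ∃ G : F, G ≠ 0 ∧ PU V₁ (G / P₁) ∧ PU V₂ (G / P₂) := by
  obtain ⟨a, ha⟩ := exists_isOrd_of_dvr V₁ ht₁.1 ht₁.2.1 ht₁.2.2 P₁ hP₁
  obtain ⟨b, hb⟩ := exists_isOrd_of_dvr V₂ ht₂.1 ht₂.2.1 ht₂.2.2 P₂ hP₂
  obtain ⟨T, hT0, hTa, hTb⟩ := exists_approx_ord2 V₁ V₂ h12 ht₁.1 ht₁.2.1 ht₁.2.2
    ht₂.1 ht₂.2.1 ht₂.2.2 a b
  have h1 : V₁.valuation (P₁ / T) = 1 := by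
    rw [map_div₀, ha, hTa]
    exact div_self (zpow_ne_zero _ (val_ne_zero_of_ne_zero ht₁.1))
  have h2 : V₂.valuation (P₂ / T) = 1 := by
    rw [map_div₀, hb, hTb]
    exact div_self (zpow_ne_zero _ (val_ne_zero_of_ne_zero ht₂.1))
  obtain ⟨L, hL1, hL2⟩ := exists_approx_res2 V₁ V₂ h12 (P₁ / T) (P₂ / T) h1 h2
  have hL0 : L ≠ 0 := by
    have := hL1.ne_zero
    intro h
    rw [h, zero_div] at this
    exact this rfl
  refine ⟨T * L, mul_ne_zero hT0 hL0, ?_, ?_⟩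
  · have e : T * L / P₁ = L / (P₁ / T) := by field_simp
    rw [e]
    exact hL1
  · have e : T * L / P₂ = L / (P₂ / T) := by field_simp
    rw [e]
    exact hL2

end Approx2

section Core

variable {F : Type*} [Field F]

/-- A principal unit has order `0`. -/
theorem isOrd_of_pu_div {V : ValuationSubring F} {w y z : F} {a : ℤ} (hw : w ≠ 0)
    (hz : IsOrd V w z a) (h : PU V (y / z)) : IsOrd V w y a := by
  have hz0 : z ≠ 0 := hz.ne_zero hw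
  have h1 := h.val_eq_one
  rw [map_div₀] at h1
  have hvz : V.valuation z ≠ 0 := (Valuation.ne_zero_iff _).2 hz0
  have h2 : V.valuation y = V.valuation z := by
    rw [div_eq_iff hvz, one_mul] at h1
    exact h1
  unfold IsOrd at *
  rw [h2, hz]

/-- **Normalisation of a Kummer generator at two vertical valuations.** -/
theorem surj_core (V₁ V₂ : ValuationSubring F) [IsDiscreteValuationRing V₁]
    [IsDiscreteValuationRing V₂] (h12 : V₁ ≠ V₂) {w : F} (hw₁ : UnifAt V₁ w)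
    (hw₂ : UnifAt V₂ w) {m : ℕ} (hm : 0 < m) {y b g₁ g₂ : F} {j₁ j₂ : ℤ}
    (hg₁ : g₁ ≠ 0) (hg₂ : g₂ ≠ 0) (hb : V₂.valuation b = 1)
    (h₁ : PU V₁ (y / (w ^ j₁ * g₁ ^ m)))
    (h₂ : PU V₂ (y / (b * (w ^ j₂ * g₂ ^ m))))
    (hslope : ∀ a₁ a₂ : ℤ, IsOrd V₁ w y a₁ → IsOrd V₂ w y a₂ → (m : ℤ) ∣ a₂ - a₁) :
    ∃ G : F, G ≠ 0 ∧ PU V₁ (y / (w ^ j₁ * G ^ m)) ∧ PU V₂ (y / (w ^ j₁ * G ^ m) / b) := by
  have hw0 : w ≠ 0 := hw₁.1
  have hb0 : b ≠ 0 := ne_of_val hb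
  -- the orders of `y`
  obtain ⟨c₁, hc₁⟩ := exists_isOrd_of_dvr V₁ hw₁.1 hw₁.2.1 hw₁.2.2 g₁ hg₁
  obtain ⟨c₂, hc₂⟩ := exists_isOrd_of_dvr V₂ hw₂.1 hw₂.2.1 hw₂.2.2 g₂ hg₂
  have o₁ : IsOrd V₁ w y (j₁ * 1 + m * c₁) :=
    isOrd_of_pu_div hw0 (((IsOrd.self).zpow j₁).mul hw0 (hc₁.pow m)) h₁
  have o₂ : IsOrd V₂ w y (0 + (j₂ * 1 + m * c₂)) :=
    isOrd_of_pu_div hw0
      ((isOrd_zero_of_val hb).mul hw0 (((IsOrd.self).zpow j₂).mul hw0 (hc₂.pow m))) h₂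
  obtain ⟨k, hk⟩ := hslope _ _ o₁ o₂
  -- `j₂ - j₁ = m * t`
  set t : ℤ := k - c₂ + c₁ with ht
  have hj : j₂ = j₁ + m * t := by
    rw [ht]
    linear_combination hk
  -- approximation
  have hP₂ : g₂ * w ^ t ≠ 0 := mul_ne_zero hg₂ (zpow_ne_zero _ hw0)
  obtain ⟨G, hG0, hG₁, hG₂⟩ := exists_approx2 V₁ V₂ h12 hw₁ hw₂ hg₁ hP₂
  have hGm : G ^ m ≠ 0 := pow_ne_zero _ hG0
  have hwj : w ^ j₁ ≠ 0 := zpow_ne_zero _ hw0
  have hwt : w ^ t ≠ 0 := zpow_ne_zero _ hw0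
  have hg₁m : g₁ ^ m ≠ 0 := pow_ne_zero _ hg₁
  have hg₂m : g₂ ^ m ≠ 0 := pow_ne_zero _ hg₂
  refine ⟨G, hG0, ?_, ?_⟩
  · have e : y / (w ^ j₁ * G ^ m) = y / (w ^ j₁ * g₁ ^ m) * ((G / g₁) ^ m)⁻¹ := by
      rw [div_pow]
      field_simp
    rw [e]
    exact h₁.mul (hG₁.pow m).inv
  · have hwj₂ : w ^ j₂ = w ^ j₁ * (w ^ t) ^ m := by
      rw [hj, zpow_add₀ hw0, mul_comm (m : ℤ) t, zpow_mul, zpow_natCast]
    have e : y / (w ^ j₁ * G ^ m) / b =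
        y / (b * (w ^ j₂ * g₂ ^ m)) * ((G / (g₂ * w ^ t)) ^ m)⁻¹ := by
      rw [hwj₂, div_pow, mul_pow]
      have : (w ^ t) ^ m ≠ 0 := pow_ne_zero _ hwt
      field_simp
    rw [e]
    exact h₂.mul (hG₂.pow m).inv

end Core

end Fermat.Agent.S59.LoSqC.H27
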