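import Fermat.Agent.S59.LoSqC.H27.PullCtx
import Fermat.Agent.S59.LoSqC.H27.SurjEAbs
import Fermat.Agent.Ribet.H127.HorDesc

/-!
# S59 moonshot, cell (C) LO-SQ, adapter SURJ-E: the facts of level `M q` contained in a
three-component context (helper27)

For `Eng.TripleCtx w q α β x x' V₁ V₂ V₃ V₁' V₂'`:

* `ctx_unif₁'`, `ctx_unif₂'` : `w` is a uniformiser of `V₁'` and of `V₂'`;
* `ctx_dvr₁'`, `ctx_dvr₂'`   : `V₁'`, `V₂'` are discrete valuation rings;
* `ctx_ne'`                  : `V₁' ≠ V₂'`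
  (`nv_α` at an element of orders `(1, 0, 0)` at `(V₁, V₂, V₃)`).
-/

set_option autoImplicit false
set_option linter.unusedSectionVars false
set_option linter.unusedVariables false
set_option linter.style.haveILetI false
set_option synthInstance.maxHeartbeats 400000
set_option maxHeartbeats 1600000

noncomputable section

namespace Fermat.Agent.S59.LoSqC.H27

open Fermat.Agent.S36.Eng Fermat.Agent.S36.H586

section Comap

variable {K L : Type*} [Field K] [Field L]

/-- The restriction of a discrete valuation ring along a field embedding is a discrete valuation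
ring as soon as it has a nonzero non-unit. -/
theorem dvr_comap27 (φ : K →+* L) (B : ValuationSubring L) [IsDiscreteValuationRing B]
    {t : K} (ht0 : t ≠ 0) (ht : φ t ∈ B.nonunits) : IsDiscreteValuationRing (B.comap φ) := by
  obtain ⟨γ, hγ0, hγ1, hval⟩ := exists_gen_of_dvr B
  rcases Fermat.Agent.Ribet.H127.comap_trivial_or_dvr_h127 φ B hγ0 hγ1 hval with h | h
  · exfalso
    have h1 := h t ht0
    have h2 : B.valuation (φ t) < 1 := (ValuationSubring.mem_nonunits_iff B).1 ht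
    rw [h1] at h2
    exact lt_irrefl _ h2
  · exact h

/-- A uniformiser upstairs which comes from downstairs is a uniformiser downstairs. -/
theorem unifAt_comap27 (φ : K →+* L) (B : ValuationSubring L) {t : K}
    (h : UnifAt B (φ t)) : UnifAt (B.comap φ) t := by
  have hov : ∀ a : K, φ a ∈ B ↔ a ∈ B.comap φ := fun a => Iff.rfl
  refine ⟨fun h0 => h.1 (by rw [h0, map_zero]), (over_mem_nonunits hov t).1 h.2.1, fun f hf => ?_⟩
  rw [← hov, map_mul, map_inv₀]
  exact h.2.2 _ ((over_mem_nonunits hov f).2 hf)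

end Comap

universe u

section Ctx

variable {R : Type u} [CommRing R] [IsDomain R] [IsDiscreteValuationRing R]
  [HenselianLocalRing R] [IsAlgClosed (IsLocalRing.ResidueField R)]
variable {E : Type u} [Field E] [CharZero E] [Algebra R E] [IsFractionRing R E]
variable {F : Type u} [Field F] [Algebra E F] [Algebra R F] [IsScalarTower R E F]
variable {F' : Type u} [Field F'] [Algebra E F'] [Algebra R F'] [IsScalarTower R E F']
variable {w : R} {q : ℕ} {α β : F' →ₐ[E] F} {x : F} {x' : F'}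
variable {V₁ V₂ V₃ : ValuationSubring F} {V₁' V₂' : ValuationSubring F'}

omit [IsDomain R] [IsDiscreteValuationRing R] [HenselianLocalRing R]
  [IsAlgClosed (IsLocalRing.ResidueField R)] [CharZero E] [IsFractionRing R E] in
theorem map_base27 (φ : F' →ₐ[E] F) (r : R) :
    (φ : F' →+* F) (algebraMap R F' r) = algebraMap R F r := by
  show φ (algebraMap R F' r) = algebraMap R F r
  rw [IsScalarTower.algebraMap_apply R E F', φ.commutes, ← IsScalarTower.algebraMap_apply R E F]

/-- `w` is a uniformiser of `V₁'`. -/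
theorem ctx_unif₁' (T : TripleCtx w q α β x x' V₁ V₂ V₃ V₁' V₂') :
    UnifAt V₁' (algebraMap R F' w) := by
  rw [← T.comap_α₁]
  apply unifAt_comap27
  rw [map_base27]
  exact T.unif₁

/-- `w` is a uniformiser of `V₂'`. -/
theorem ctx_unif₂' (T : TripleCtx w q α β x x' V₁ V₂ V₃ V₁' V₂') :
    UnifAt V₂' (algebraMap R F' w) := by
  rw [← T.comap_β₃]
  apply unifAt_comap27
  rw [map_base27]
  exact T.unif₃

/-- `V₁'` is a discrete valuation ring. -/
theorem ctx_dvr₁' (T : TripleCtx w q α β x x' V₁ V₂ V₃ V₁' V₂') :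
    IsDiscreteValuationRing V₁' := by
  haveI := T.dvr₁
  have h := ctx_unif₁' T
  rw [← T.comap_α₁]
  refine dvr_comap27 (α : F' →+* F) V₁ h.1 ?_
  rw [map_base27]
  exact T.unif₁.2.1

/-- `V₂'` is a discrete valuation ring. -/
theorem ctx_dvr₂' (T : TripleCtx w q α β x x' V₁ V₂ V₃ V₁' V₂') :
    IsDiscreteValuationRing V₂' := by
  haveI := T.dvr₃
  have h := ctx_unif₂' T
  rw [← T.comap_β₃]
  refine dvr_comap27 (β : F' →+* F) V₃ h.1 ?_
  rw [map_base27]
  exact T.unif₃.2.1

/-- `IsOrd` ⟹ the unit form of the orders used in `TripleCtx.nv_α`. -/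
theorem unitAt_of_isOrd27 {K : Type*} [Field K] {V : ValuationSubring K} {t y : K} {a : ℤ}
    (ht : t ≠ 0) (h : IsOrd V t y a) : UnitAt V (y * (t ^ a)⁻¹) := by
  rw [unitAt_iff, map_mul, map_inv₀, map_zpow₀]
  unfold IsOrd at h
  rw [h]
  exact mul_inv_cancel₀ (zpow_ne_zero _ ((Valuation.ne_zero_iff _).2 ht))

/-- **`V₁' ≠ V₂'`.** -/
theorem ctx_ne' (T : TripleCtx w q α β x x' V₁ V₂ V₃ V₁' V₂') : V₁' ≠ V₂' := by
  intro h12
  haveI := T.dvr₁
  haveI := T.dvr₂
  haveI := T.dvr₃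
  obtain ⟨t, ht, -⟩ := T.ram₂
  obtain ⟨y, hy₁, hy₂, hy₃⟩ := exists_approx_ord3 V₁ V₂ V₃ T.ne₁₂ T.ne₁₃ T.ne₂₃
    T.unif₁.1 T.unif₁.2.1 T.unif₁.2.2 ht.1 ht.2.1 ht.2.2 T.unif₃.1 T.unif₃.2.1 T.unif₃.2.2 1 0 0
  have hy0 : y ≠ 0 := hy₁.ne_zero T.unif₁.1
  obtain ⟨h1, h2⟩ := T.nv_α t ht y 1 0 0 hy0 (unitAt_of_isOrd27 T.unif₁.1 hy₁)
    (unitAt_of_isOrd27 ht.1 hy₂) (unitAt_of_isOrd27 T.unif₃.1 hy₃)
  rw [← h12] at h2
  have e1 := unitAt_iff.1 h1
  have e2 := unitAt_iff.1 h2
  rw [mul_zero, zpow_zero, inv_one, mul_one] at e2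
  rw [map_mul, e2, one_mul, map_inv₀, add_zero, zpow_one, inv_eq_one] at e1
  have hU := ctx_unif₁' T
  have h3 : V₁'.valuation (algebraMap R F' w) < 1 :=
    (ValuationSubring.mem_nonunits_iff V₁').1 hU.2.1
  rw [e1] at h3
  exact lt_irrefl _ h3

end Ctx

end Fermat.Agent.S59.LoSqC.H27

end
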