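import Fermat.Agent.S59.LoSqC.H27.SurjE
import Fermat.Agent.S59.LoSqC.H27.SurjECtx
import Fermat.Agent.S59.LoSqC.H987.LevelWall
import Fermat.Agent.S59.LoSqC.H967.CondPDiv
import Fermat.Agent.S36.Mod3.Spec

/-!
# S59 moonshot, cell (C) LO-SQ: leaf (R) VERBATIM = `H987.RSurj1E` at the objects of
`S36.Mod3.Objs`, from the `J`-form `H27.SurjJ` (helper27)

`rSurj1E_plug` : `Mod3.Std`, `Mod3.Objs`, the three-component context `Eng.TripleCtx` (LeafCtx),
`0 < m`, `q ∤ m`, `SurjJ P E m M (M * q) w V₁' V₂'`  ⟹  `H987.RSurj1E (A2.RE P E) E m V₁' V₂'`.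

Plugged: COND-PDIV (`H967.pDivSeries_of_condW_zero967`, helper967), SURJ-E (`H27.SurjE`),
the facts of level `M q` of the context (`H27.SurjECtx`).
-/

set_option autoImplicit false
set_option linter.unusedSectionVars false
set_option linter.unusedVariables false
set_option linter.style.haveILetI false
set_option synthInstance.maxHeartbeats 400000
set_option maxHeartbeats 1600000

noncomputable section

namespace Fermat.Agent.S59.LoSqC.H27

open ModularCurve HahnSeries AlgebraicCurve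
open Fermat.Agent.A2 Fermat.Agent.A2.Mod
open Fermat.Agent.S24 Fermat.Agent.A2.H528 Fermat.Agent.A2.T1.H669 Fermat.Agent.Ribet.H884
open Fermat.Agent.S36 Fermat.Agent.S36.Eng

local notation "Q̄" => AlgebraicClosure ℚ

section Plug

variable {P : ValuationSubring Q̄} {E : IntermediateField ℚ Q̄} {M q : ℕ}
  [NeZero M] [NeZero q] [NeZero (M * q)] {w : A2.RE P E}
  {V₁' V₂' : ValuationSubring (A2.Mod.FE E (M * q))}
  {V₁ V₂ V₃ : ValuationSubring (A2.Mod.FE E (M * q * q))}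
  {W' : A2.Mod.FE E (M * q) ≃ₐ[E] A2.Mod.FE E (M * q)}
  {W : A2.Mod.FE E (M * q * q) ≃ₐ[E] A2.Mod.FE E (M * q * q)}

/-- The constant `w` of `F_E(N)` is the image of `w ∈ R_E`. -/
theorem algebraMap_eq_cE (N : ℕ) (r : A2.RE P E) :
    algebraMap (A2.RE P E) (A2.Mod.FE E N) r = A2.Mod.cE P E N r := rfl

/-- **Leaf (R), VERBATIM.** -/
theorem rSurj1E_plug (hS : Mod3.Std P E M q w)
    (hO : Mod3.Objs P E M q V₁' V₂' V₁ V₂ V₃ W' W)
    (T : TripleCtx (R := A2.RE P E) (E := E) w q (A2.Mod.αE E (M * q) q)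
      (A2.Mod.βE E (M * q) q) (Mod3.x3E E M q) (A2.Mod.xE E M q) V₁ V₂ V₃ V₁' V₂')
    {m : ℕ} (hm : 0 < m) (hqm : ¬ q ∣ m)
    (hJ : SurjJ P E m M (M * q) w V₁' V₂') :
    Fermat.Agent.S59.LoSqC.H987.RSurj1E (A2.RE P E) E m V₁' V₂' := by
  have hE : GoodField P E := hS.unram.1
  haveI : IsDiscreteValuationRing ↥(A2.RE P E) := hE.dvr
  haveI : HenselianLocalRing ↥(A2.RE P E) := hE.henselian
  haveI : IsAlgClosed (IsLocalRing.ResidueField ↥(A2.RE P E)) := hE.algClosed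
  have hdvr := ctx_dvr₁' T
  have hdvr₀ := ctx_dvr₂' T
  have h12 := ctx_ne' T
  have key := rSurj1E_of_surjJ (N := M * q) rfl hS.q_prime hS.q_not_dvd hS.lies_over hE
    hS.unif hO.vinf' hO.fricke' hO.vzero' hdvr hdvr₀ h12 hm hqm hJ
    (Fermat.Agent.S59.LoSqC.H987.CondW (A2.RE P E) m V₂') (fun b hb hCb => by
      have hb0 : b ≠ 0 := Fermat.Agent.S36.H586.ne_of_val hb
      have hWb0 : W' b ≠ 0 := (map_ne_zero_iff _ W'.injective).2 hb0
      obtain ⟨ρ, hρ⟩ := Fermat.Agent.S59.LoSqC.H967.exists_isRedSer967 (A := P) (N := M * q)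
        hE.dvr hWb0
      have hρZ : IsRedZero (M * q) P (iota E (modularFunctionFieldFull (M * q)) b) ρ :=
        (Fermat.Agent.S59.LoSqC.H967.isRedZero_iotaN_iff967 hO.fricke' b ρ).2 hρ
      have hρD : PDivSeries m M ρ :=
        Fermat.Agent.S59.LoSqC.H967.pDivSeries_of_condW_zero967 hS.q_prime hS.q_not_dvd
          hS.lies_over hE.dvr hO.vinf' W' hO.vzero' hCb hρ
      exact ⟨ρ, hρZ, hρD⟩)
  exact key

end Plug

end Fermat.Agent.S59.LoSqC.H27

end
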