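import Fermat.Agent.S36.H586.G1Table
import Fermat.Agent.A2.H12.GSpec
import Fermat.Agent.Ribet.H127.HorDesc

/-!
# S59 moonshot, cell (C) LO-SQ, leaf W-PULL (reduction half), part 1 (helper27)

ONE embedding `φ : F' → F` of fields and ONE pair of valuation rings `V | O`
(`V.comap φ = O`, in the form `hov : ∀ a, φ a ∈ V ↔ a ∈ O` of `S36.H586.over_of_comap`).
Mathlib-only statements, in the vocabulary of the S36 engine (`Eng.UnitAt`, `H586.PU`,
`A2.H12.SplitAt`, `A2.DivisibleDiv`).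

* `IsResPow m V g`   : `g = G ^ m · (1 + 𝔪_V)` with `G` a unit of `V`
                        (`g` is a unit of `V` whose residue is an `m`-th power);
                        `isResPow_iff_splitAt` compares with `A2.H12.SplitAt` on units;
* (P1) `over_unitAt`, `over_mem_nonunits` : units and non-units along `φ`;
* (P2) `over_sub_mem_nonunits`, `over_pu_div` : congruences along `φ`;
* (P3) `isResPow_up` (always), `isResPow_down_res` (residue degree one),
       `isResPow_down_insep` (purely inseparable residue extension of degree `q`, `gcd(q, m) = 1`):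
       `m`-th power residues along `φ`, in both directions;
* (LIFT) `exists_lift_res`, `exists_lift_insep` : every unit of `V` is, modulo `1 + 𝔪_V`
       (resp. modulo `m`-th powers and `1 + 𝔪_V`), the image of a unit of `O`;
* (P4) `divisibleDiv_map` : `m ∣ div g` ⟹ `m ∣ div (φ g)` for an `E`-algebra map `φ`.
-/

set_option autoImplicit false
set_option linter.unusedSectionVars false
set_option linter.unusedVariables false
set_option linter.style.haveILetI false

namespace Fermat.Agent.S59.LoSqC.H27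

open Fermat.Agent.S36.Eng Fermat.Agent.S36.H586
open Fermat.Agent.A2.H12 (SplitAt)

/-! ## `m`-th power residues -/

section ResPow

variable {F : Type*} [Field F] {V : ValuationSubring F}

/-- `g` is a unit of `V` whose residue is the `m`-th power of a unit:
`g ∈ G ^ m · (1 + 𝔪_V)`, `G ∈ Vˣ`. -/
def IsResPow (m : ℕ) (V : ValuationSubring F) (g : F) : Prop :=
  ∃ G : F, V.valuation G = 1 ∧ PU V (g / G ^ m)

theorem IsResPow.val_eq_one {m : ℕ} {g : F} (h : IsResPow m V g) : V.valuation g = 1 := by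
  obtain ⟨G, hG, hpu⟩ := h
  have h1 := hpu.val_eq_one
  rw [map_div₀, map_pow, hG, one_pow, div_one] at h1
  exact h1

theorem IsResPow.ne_zero {m : ℕ} {g : F} (h : IsResPow m V g) : g ≠ 0 :=
  ne_of_val h.val_eq_one

theorem IsResPow.unitAt {m : ℕ} {g : F} (h : IsResPow m V g) : UnitAt V g :=
  unitAt_iff.2 h.val_eq_one

theorem isResPow_of_pu {m : ℕ} {g : F} (h : PU V g) : IsResPow m V g :=
  ⟨1, map_one _, by rw [one_pow, div_one]; exact h⟩

theorem isResPow_one {m : ℕ} : IsResPow m V (1 : F) := isResPow_of_pu PU.one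

theorem isResPow_pow {m : ℕ} {G : F} (hG : V.valuation G = 1) : IsResPow m V (G ^ m) :=
  ⟨G, hG, by
    rw [div_self (pow_ne_zero _ (ne_of_val hG))]
    exact PU.one⟩

theorem IsResPow.mul {m : ℕ} {g h : F} (hg : IsResPow m V g) (hh : IsResPow m V h) :
    IsResPow m V (g * h) := by
  obtain ⟨G, hG, hpu⟩ := hg
  obtain ⟨H, hH, hpv⟩ := hh
  refine ⟨G * H, by rw [map_mul, hG, hH, one_mul], ?_⟩
  have e : g * h / (G * H) ^ m = (g / G ^ m) * (h / H ^ m) := by
    rw [mul_pow]
    field_simp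
  rw [e]
  exact hpu.mul hpv

theorem IsResPow.inv {m : ℕ} {g : F} (hg : IsResPow m V g) : IsResPow m V g⁻¹ := by
  obtain ⟨G, hG, hpu⟩ := hg
  refine ⟨G⁻¹, by rw [map_inv₀, hG, inv_one], ?_⟩
  have e : g⁻¹ / G⁻¹ ^ m = (g / G ^ m)⁻¹ := by
    rw [inv_pow]
    field_simp
  rw [e]
  exact hpu.inv

theorem IsResPow.div {m : ℕ} {g h : F} (hg : IsResPow m V g) (hh : IsResPow m V h) :
    IsResPow m V (g / h) := by
  rw [div_eq_mul_inv]
  exact hg.mul hh.inv

theorem IsResPow.pow {m : ℕ} {g : F} (hg : IsResPow m V g) (n : ℕ) : IsResPow m V (g ^ n) := by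
  induction n with
  | zero => rw [pow_zero]; exact isResPow_one
  | succ n ih => rw [pow_succ]; exact ih.mul hg

theorem IsResPow.zpow {m : ℕ} {g : F} (hg : IsResPow m V g) (n : ℤ) : IsResPow m V (g ^ n) := by
  cases n with
  | ofNat n => rw [Int.ofNat_eq_natCast, zpow_natCast]; exact hg.pow n
  | negSucc n => rw [zpow_negSucc]; exact (hg.pow _).inv

/-- Congruent units have the same residue. -/
theorem IsResPow.congr {m : ℕ} {g h : F} (hg : IsResPow m V g) (hgh : PU V (h / g)) :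
    IsResPow m V h := by
  have h0 : g ≠ 0 := hg.ne_zero
  have e : h = g * (h / g) := by field_simp
  rw [e]
  exact hg.mul (isResPow_of_pu hgh)

/-- `x ^ q` and `m` coprime to `q`: the residue of `x` is an `m`-th power as soon as the one of
`x ^ q` is. -/
theorem isResPow_of_pow_coprime {q m : ℕ} (hm : 0 < m) (hqm : Nat.Coprime q m) {g : F}
    (hg : V.valuation g = 1) (h : IsResPow m V (g ^ q)) : IsResPow m V g := by
  obtain ⟨G, hG, hpu⟩ := h
  obtain ⟨G', hG'0, hpu'⟩ :=
    exists_pu_div_pow_of_coprime hqm (ne_of_val hg) (ne_of_val hG) hpu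
  refine ⟨G', ?_, hpu'⟩
  have h1 := hpu'.val_eq_one
  rw [map_div₀, hg] at h1
  have h2 : V.valuation (G' ^ m) = 1 := by
    have h3 : V.valuation (G' ^ m) ≠ 0 :=
      (Valuation.ne_zero_iff _).2 (pow_ne_zero _ hG'0)
    have h4 : (1 : V.ValueGroup) = V.valuation (G' ^ m) := by
      rw [div_eq_iff h3, one_mul] at h1
      exact h1
    exact h4.symm
  exact val_eq_one_of_pow hm h2

/-- Comparison with `A2.H12.SplitAt` (which contains the junk case `u = 0`): on units of `V` the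
two notions agree. -/
theorem isResPow_iff_splitAt {m : ℕ} (hm : 0 < m) {g : F} (hg : V.valuation g = 1) :
    IsResPow m V g ↔ SplitAt m V g := by
  constructor
  · rintro ⟨G, hG, hpu⟩
    have hGu := unitAt_iff.2 hG
    refine ⟨G, hGu.2.1, hGu.2.2, ?_⟩
    have hGm : V.valuation (G ^ m) = 1 := by rw [map_pow, hG, one_pow]
    exact (ValuationSubring.mem_nonunits_iff V).2 (sub_of_pu_div hGm hpu)
  · rintro ⟨u, hu, hu', hgu⟩
    have hgu' : V.valuation (g - u ^ m) < 1 := (ValuationSubring.mem_nonunits_iff V).1 hgu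
    have hum : V.valuation (u ^ m) = 1 := val_eq_one_of_sub_lt hg hgu'
    have hu1 : V.valuation u = 1 := val_eq_one_of_pow hm hum
    exact ⟨u, hu1, pu_div_of_sub hum hgu'⟩

theorem IsResPow.splitAt {m : ℕ} {g : F} (h : IsResPow m V g) : SplitAt m V g := by
  obtain ⟨G, hG, hpu⟩ := h
  have hGu := unitAt_iff.2 hG
  refine ⟨G, hGu.2.1, hGu.2.2, ?_⟩
  have hGm : V.valuation (G ^ m) = 1 := by rw [map_pow, hG, one_pow]
  exact (ValuationSubring.mem_nonunits_iff V).2 (sub_of_pu_div hGm hpu)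

end ResPow

/-! ## One embedding, one pair `V | O` -/

section One

variable {F' F : Type*} [Field F'] [Field F] {φ : F' →+* F} {O : ValuationSubring F'}
  {V : ValuationSubring F}

/-- (P1) units along `φ`. -/
theorem over_unitAt (hov : ∀ a : F', φ a ∈ V ↔ a ∈ O) (a : F') :
    UnitAt V (φ a) ↔ UnitAt O a := by
  rw [unitAt_iff, unitAt_iff]
  exact over_val_eq_one hov a

/-- (P1) non-units along `φ`. -/
theorem over_mem_nonunits (hov : ∀ a : F', φ a ∈ V ↔ a ∈ O) (a : F') :
    φ a ∈ V.nonunits ↔ a ∈ O.nonunits := by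
  rw [ValuationSubring.mem_nonunits_iff, ValuationSubring.mem_nonunits_iff]
  exact over_val_lt_one hov a

/-- (P2) congruences along `φ`. -/
theorem over_sub_mem_nonunits (hov : ∀ a : F', φ a ∈ V ↔ a ∈ O) (a b : F') :
    φ a - φ b ∈ V.nonunits ↔ a - b ∈ O.nonunits := by
  rw [← map_sub]
  exact over_mem_nonunits hov _

/-- (P2) congruences of units along `φ`, multiplicative form. -/
theorem over_pu_div (hov : ∀ a : F', φ a ∈ V ↔ a ∈ O) (a b : F') :
    PU V (φ a / φ b) ↔ PU O (a / b) := by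
  rw [← map_div₀]
  exact over_pu hov _

/-- (P3, up) an `m`-th power residue stays one. -/
theorem isResPow_up (hov : ∀ a : F', φ a ∈ V ↔ a ∈ O) {m : ℕ} {g : F'}
    (h : IsResPow m O g) : IsResPow m V (φ g) := by
  obtain ⟨G, hG, hpu⟩ := h
  refine ⟨φ G, (over_val_eq_one hov G).2 hG, ?_⟩
  rw [← map_pow, ← map_div₀]
  exact (over_pu hov _).2 hpu

/-- (P3, up) in `SplitAt` form. -/
theorem splitAt_up (hov : ∀ a : F', φ a ∈ V ↔ a ∈ O) {m : ℕ} {g : F'}
    (h : SplitAt m O g) : SplitAt m V (φ g) := by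
  obtain ⟨u, hu, hu', hgu⟩ := h
  refine ⟨φ u, (hov u).2 hu, ?_, ?_⟩
  · rw [← map_inv₀]
    exact (hov _).2 hu'
  · rw [← map_pow, ← map_sub]
    exact (over_mem_nonunits hov _).2 hgu

/-- (LIFT, residue degree one) every unit of `V` is congruent to the image of a unit of `O`. -/
theorem exists_lift_res (hov : ∀ a : F', φ a ∈ V ↔ a ∈ O)
    (hres : ∀ y : F, V.valuation y = 1 → ∃ a : F', V.valuation (y - φ a) < 1)
    {y : F} (hy : V.valuation y = 1) :
    ∃ a : F', O.valuation a = 1 ∧ PU V (y / φ a) := by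
  obtain ⟨a, ha⟩ := hres y hy
  have h1 : V.valuation (φ a) = 1 := val_eq_one_of_sub_lt hy ha
  exact ⟨a, (over_val_eq_one hov a).1 h1, pu_div_of_sub h1 ha⟩

/-- (LIFT, purely inseparable of degree `q`) every unit of `V` is, modulo `m`-th powers of units
(`gcd(q, m) = 1`), congruent to the image of a unit of `O`. -/
theorem exists_lift_insep (hov : ∀ a : F', φ a ∈ V ↔ a ∈ O) {q : ℕ}
    (hres : ∀ y : F, V.valuation y = 1 → ∃ c : F', V.valuation (y ^ q - φ c) < 1)
    {m : ℕ} (hqm : Nat.Coprime q m) {y : F} (hy : V.valuation y = 1) :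
    ∃ (a : F') (G : F), O.valuation a = 1 ∧ V.valuation G = 1 ∧ PU V (y / (φ a * G ^ m)) := by
  obtain ⟨c, hc⟩ := hres y hy
  have hyq : V.valuation (y ^ q) = 1 := by rw [map_pow, hy, one_pow]
  have h1 : V.valuation (φ c) = 1 := val_eq_one_of_sub_lt hyq hc
  have hc1 : O.valuation c = 1 := (over_val_eq_one hov c).1 h1
  have hpu : PU V (y ^ q / φ c) := pu_div_of_sub h1 hc
  obtain ⟨a, b, hab⟩ := Nat.isCoprime_iff_coprime.2 hqm
  have hy0 : y ≠ 0 := ne_of_val hy
  have hc0 : c ≠ 0 := ne_of_val hc1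
  have hφc0 : φ c ≠ 0 := ne_of_val h1
  refine ⟨c ^ a, y ^ b, by rw [map_zpow₀, hc1, one_zpow], by rw [map_zpow₀, hy, one_zpow], ?_⟩
  have e : y / (φ (c ^ a) * (y ^ b) ^ m) = (y ^ q / φ c) ^ a := by
    have hx1 : y = (y ^ q) ^ a * (y ^ b) ^ m := by
      rw [← zpow_natCast y q, ← zpow_natCast (y ^ b) m, ← zpow_mul, ← zpow_mul,
        ← zpow_add₀ hy0, mul_comm (q : ℤ) a, hab, zpow_one]
    rw [map_zpow₀, div_zpow]
    have h2 : φ c ^ a ≠ 0 := zpow_ne_zero _ hφc0
    have h3 : (y ^ b) ^ m ≠ 0 := pow_ne_zero _ (zpow_ne_zero _ hy0)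
    rw [div_eq_div_iff (mul_ne_zero h2 h3) h2]
    calc y * φ c ^ a = ((y ^ q) ^ a * (y ^ b) ^ m) * φ c ^ a := by rw [← hx1]
      _ = (y ^ q) ^ a * (φ c ^ a * (y ^ b) ^ m) := by ring
  rw [e]
  exact hpu.zpow a

/-- (P3, down, residue degree one) `φ g` has an `m`-th power residue at `V` ⟹ so has `g`
at `O`. -/
theorem isResPow_down_res (hov : ∀ a : F', φ a ∈ V ↔ a ∈ O)
    (hres : ∀ y : F, V.valuation y = 1 → ∃ a : F', V.valuation (y - φ a) < 1)
    {m : ℕ} {g : F'} (h : IsResPow m V (φ g)) : IsResPow m O g := by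
  obtain ⟨G, hG, hpu⟩ := h
  obtain ⟨a, ha1, hpa⟩ := exists_lift_res hov hres hG
  have hφa : V.valuation (φ a) = 1 := (over_val_eq_one hov a).2 ha1
  have hG0 : G ≠ 0 := ne_of_val hG
  have hφa0 : φ a ≠ 0 := ne_of_val hφa
  refine ⟨a, ha1, (over_pu hov _).1 ?_⟩
  have e : φ (g / a ^ m) = (φ g / G ^ m) * (G / φ a) ^ m := by
    rw [map_div₀, map_pow, div_pow]
    field_simp
  rw [e]
  exact hpu.mul (hpa.pow m)

/-- (P3, down, purely inseparable of degree `q`, `gcd(q, m) = 1`). -/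
theorem isResPow_down_insep (hov : ∀ a : F', φ a ∈ V ↔ a ∈ O) {q : ℕ}
    (hres : ∀ y : F, V.valuation y = 1 → ∃ c : F', V.valuation (y ^ q - φ c) < 1)
    {m : ℕ} (hm : 0 < m) (hqm : Nat.Coprime q m) {g : F'} (h : IsResPow m V (φ g)) :
    IsResPow m O g := by
  have hg1 : O.valuation g = 1 := (over_val_eq_one hov g).1 h.val_eq_one
  obtain ⟨G, hG, hpu⟩ := h
  obtain ⟨c, hc⟩ := hres G hG
  have hGq : V.valuation (G ^ q) = 1 := by rw [map_pow, hG, one_pow]
  have hφc : V.valuation (φ c) = 1 := val_eq_one_of_sub_lt hGq hc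
  have hc1 : O.valuation c = 1 := (over_val_eq_one hov c).1 hφc
  have hpc : PU V (G ^ q / φ c) := pu_div_of_sub hφc hc
  have hG0 : G ≠ 0 := ne_of_val hG
  have hφc0 : φ c ≠ 0 := ne_of_val hφc
  have h1 : PU O (g ^ q / c ^ m) := by
    refine (over_pu hov _).1 ?_
    have e : φ (g ^ q / c ^ m) = (φ g / G ^ m) ^ q * (G ^ q / φ c) ^ m := by
      rw [map_div₀, map_pow, map_pow, div_pow, div_pow]
      field_simp
      ring
    rw [e]
    exact (hpu.pow q).mul (hpc.pow m)
  exact isResPow_of_pow_coprime hm hqm hg1 ⟨c, hc1, h1⟩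

/-- (P3) `SplitAt` form of the three transfers, on units. -/
theorem splitAt_down_res (hov : ∀ a : F', φ a ∈ V ↔ a ∈ O)
    (hres : ∀ y : F, V.valuation y = 1 → ∃ a : F', V.valuation (y - φ a) < 1)
    {m : ℕ} (hm : 0 < m) {g : F'} (hg : UnitAt O g) (h : SplitAt m V (φ g)) :
    SplitAt m O g := by
  have hg1 : O.valuation g = 1 := unitAt_iff.1 hg
  have hg2 : V.valuation (φ g) = 1 := (over_val_eq_one hov g).2 hg1
  exact (isResPow_down_res hov hres ((isResPow_iff_splitAt hm hg2).2 h)).splitAt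

theorem splitAt_down_insep (hov : ∀ a : F', φ a ∈ V ↔ a ∈ O) {q : ℕ}
    (hres : ∀ y : F, V.valuation y = 1 → ∃ c : F', V.valuation (y ^ q - φ c) < 1)
    {m : ℕ} (hm : 0 < m) (hqm : Nat.Coprime q m) {g : F'} (hg : UnitAt O g)
    (h : SplitAt m V (φ g)) : SplitAt m O g := by
  have hg1 : O.valuation g = 1 := unitAt_iff.1 hg
  have hg2 : V.valuation (φ g) = 1 := (over_val_eq_one hov g).2 hg1
  exact (isResPow_down_insep hov hres hm hqm ((isResPow_iff_splitAt hm hg2).2 h)).splitAt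

end One

/-! ## (P4) `m ∣ div` along an embedding -/

section Div

variable {E F' F : Type*} [Field E] [Field F'] [Field F] [Algebra E F'] [Algebra E F]

/-- A discrete valuation ring has value group `γ ^ ℤ`. -/
theorem exists_gen_of_dvr (V : ValuationSubring F) [IsDiscreteValuationRing V] :
    ∃ γ : V.ValueGroup, γ ≠ 0 ∧ γ < 1 ∧ ∀ f : F, f ≠ 0 → ∃ k : ℤ, V.valuation f = γ ^ k := by
  obtain ⟨π, hπ⟩ := IsDiscreteValuationRing.exists_irreducible V
  have hπ0 : (π : F) ≠ 0 := fun h => hπ.ne_zero (Subtype.ext h)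
  have hγ1 : V.valuation (π : F) < 1 := by
    refine lt_of_le_of_ne ((V.valuation_le_one_iff _).2 π.2) ?_
    intro h1
    exact hπ.not_isUnit ((V.valuation_eq_one_iff π).2 h1)
  have key : ∀ f : F, f ≠ 0 → f ∈ V → ∃ k : ℤ, V.valuation f = V.valuation (π : F) ^ k := by
    intro f hf hfV
    have hf' : (⟨f, hfV⟩ : V) ≠ 0 := fun h => hf (congrArg Subtype.val h)
    obtain ⟨n, u, hu⟩ := IsDiscreteValuationRing.eq_unit_mul_pow_irreducible hf' hπ
    refine ⟨n, ?_⟩
    have h1 : f = (u : V) * (π : F) ^ n := by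
      have := congrArg Subtype.val hu
      simpa using this
    have hu1 : V.valuation ((u : V) : F) = 1 := (V.valuation_eq_one_iff _).1 u.isUnit
    rw [h1, map_mul, map_pow, hu1, one_mul, zpow_natCast]
  refine ⟨V.valuation (π : F), (Valuation.ne_zero_iff _).2 hπ0, hγ1, ?_⟩
  intro f hf
  rcases V.mem_or_inv_mem f with h | h
  · exact key f hf h
  · obtain ⟨k, hk⟩ := key f⁻¹ (inv_ne_zero hf) h
    refine ⟨-k, ?_⟩
    rw [map_inv₀] at hk
    rw [zpow_neg, ← hk, inv_inv]

/-- (P4) **`m ∣ div g` ⟹ `m ∣ div (φ g)`** for an embedding `φ` of function fields over `E`. -/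
theorem divisibleDiv_map (φ : F' →ₐ[E] F) {m : ℕ} {g : F'}
    (h : Fermat.Agent.A2.DivisibleDiv E m g) : Fermat.Agent.A2.DivisibleDiv E m (φ g) := by
  intro V hV hEV
  haveI := hV
  by_cases hg0 : g = 0
  · subst hg0
    exact ⟨1, 0, one_ne_zero, V.zero_mem, by rw [inv_zero]; exact V.zero_mem, by
      rw [map_zero, zero_mul]⟩
  obtain ⟨γ, hγ0, hγ1, hval⟩ := exists_gen_of_dvr V
  rcases Fermat.Agent.Ribet.H127.comap_trivial_or_dvr_h127 (φ : F' →+* F) V hγ0 hγ1 hval with
    htriv | hdvr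
  · have h1 : V.valuation (φ g) = 1 := htriv g hg0
    have hu := unitAt_iff.2 h1
    exact ⟨1, φ g, one_ne_zero, hu.2.1, hu.2.2, by rw [one_pow, mul_one]⟩
  · obtain ⟨h', u, hh0, hu, hu', hgu⟩ := h (V.comap (φ : F' →+* F)) hdvr (fun e => by
      rw [ValuationSubring.mem_comap]
      show φ (algebraMap E F' e) ∈ V
      rw [φ.commutes]
      exact hEV e)
    refine ⟨φ h', φ u, (map_ne_zero φ).2 hh0, ValuationSubring.mem_comap.1 hu, ?_, ?_⟩
    · rw [← map_inv₀]
      exact ValuationSubring.mem_comap.1 hu'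
    · rw [hgu, map_mul, map_pow]

end Div

end Fermat.Agent.S59.LoSqC.H27
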