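import Fermat.Agent.S59.LoSqC.H27.PullAbs
import Fermat.Agent.S36.H586.LeafStepA

/-!
# S59 moonshot, cell (C) LO-SQ, leaf W-PULL (reduction half), part 2 (helper27)

The REDUCTION TABLE of the two degeneracy maps `α, β : F' → F` of a three-component context
`Eng.TripleCtx w q α β x x' V₁ V₂ V₃ V₁' V₂'` (binders of `Eng.Alg3Statement`):

    via α :  V₁ | V₁' (f = 1)    V₂ | V₁' (f = 1)    V₃ | V₂' (f = q, purely inseparable)
    via β :  V₃ | V₂' (f = 1)    V₂ | V₂' (f = 1)    V₁ | V₁' (f = q, purely inseparable)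

so that for `g ∈ F'` with reductions `(r∞, r₀)` on `(V₁', V₂')`

    α g  has reductions  (r∞, r∞, φ r₀)  on  (V₁, V₂, V₃),
    β g  has reductions  (φ r∞, r₀, r₀)  on  (V₁, V₂, V₃)       (φ = Frobenius, bijective on
                                                                  classes modulo `m`-th powers).

* `normTables_of_ctx`      : the two `H586.NormTable`s of the context (exported; inside
                             `H586.leafStepA` on main they are local);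
* `unitAt_α₁ … unitAt_β₃`  : (P1) units;
* `congr_α₁ … congr_β₃`    : (P2) congruences modulo the maximal ideals;
* `isResPow_α₁ … isResPow_β₃` : (P3) `m`-th power residues, as EQUIVALENCES
                             (`gcd(q, m) = 1` only at the two purely inseparable pairs);
* `exists_lift_α₁ …`       : (LIFT) every unit of `V_i` comes from a unit of `V_j'`
                             (modulo `m`-th powers at the purely inseparable pairs);
* `divisibleDiv_α`, `divisibleDiv_β` : (P4);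
* `pull_sub_raw`           : the LINEAR ALGEBRA of the subtraction step: for a unit `u` of
                             `V₁, V₂, V₃` there are units `y, t, z` of level `q M'` such that
                             `u / (α g · β g')` has `m`-th power residues at `V₁, V₂, V₃`
                             for ALL `g ~ (1, z)`, `g' ~ (y, t)`; `y = 1` if `u ≡ 1` on `V₁`.
-/

set_option autoImplicit false
set_option linter.unusedSectionVars false
set_option linter.unusedVariables false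
set_option linter.style.haveILetI false
set_option synthInstance.maxHeartbeats 400000
set_option maxHeartbeats 1600000

noncomputable section

namespace Fermat.Agent.S59.LoSqC.H27

open Fermat.Agent.S36.Eng Fermat.Agent.S36.H586
open Fermat.Agent.S18.H138 (chart baseField)
open Fermat.Agent.A2.H12 (IsSheet SplitAt)

universe u

section Ctx

variable {R : Type u} [CommRing R] [IsDomain R] [IsDiscreteValuationRing R]
  [HenselianLocalRing R] [IsAlgClosed (IsLocalRing.ResidueField R)]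
variable {E : Type u} [Field E] [CharZero E] [Algebra R E] [IsFractionRing R E]
variable {F : Type u} [Field F] [Algebra E F] [Algebra R F] [IsScalarTower R E F]
variable {F' : Type u} [Field F'] [Algebra E F'] [Algebra R F'] [IsScalarTower R E F']
variable {w : R} {q : ℕ} {α β : F' →ₐ[E] F} {x : F} {x' : F'}
variable {V₁ V₂ V₃ : ValuationSubring F} {V₁' V₂' : ValuationSubring F'}

/-! ### lying over -/

theorem ov_α₁ (T : TripleCtx w q α β x x' V₁ V₂ V₃ V₁' V₂') :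
    ∀ a : F', (α : F' →+* F) a ∈ V₁ ↔ a ∈ V₁' := over_of_comap T.comap_α₁

theorem ov_α₂ (T : TripleCtx w q α β x x' V₁ V₂ V₃ V₁' V₂') :
    ∀ a : F', (α : F' →+* F) a ∈ V₂ ↔ a ∈ V₁' := over_of_comap T.comap_α₂

theorem ov_α₃ (T : TripleCtx w q α β x x' V₁ V₂ V₃ V₁' V₂') :
    ∀ a : F', (α : F' →+* F) a ∈ V₃ ↔ a ∈ V₂' := over_of_comap T.comap_α₃

theorem ov_β₁ (T : TripleCtx w q α β x x' V₁ V₂ V₃ V₁' V₂') :
    ∀ a : F', (β : F' →+* F) a ∈ V₁ ↔ a ∈ V₁' := over_of_comap T.comap_β₁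

theorem ov_β₂ (T : TripleCtx w q α β x x' V₁ V₂ V₃ V₁' V₂') :
    ∀ a : F', (β : F' →+* F) a ∈ V₂ ↔ a ∈ V₂' := over_of_comap T.comap_β₂

theorem ov_β₃ (T : TripleCtx w q α β x x' V₁ V₂ V₃ V₁' V₂') :
    ∀ a : F', (β : F' →+* F) a ∈ V₃ ↔ a ∈ V₂' := over_of_comap T.comap_β₃

/-! ### (P1) units -/

theorem unitAt_α₁ (T : TripleCtx w q α β x x' V₁ V₂ V₃ V₁' V₂') (g : F') :
    UnitAt V₁ (α g) ↔ UnitAt V₁' g := over_unitAt (ov_α₁ T) g

theorem unitAt_α₂ (T : TripleCtx w q α β x x' V₁ V₂ V₃ V₁' V₂') (g : F') :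
    UnitAt V₂ (α g) ↔ UnitAt V₁' g := over_unitAt (ov_α₂ T) g

theorem unitAt_α₃ (T : TripleCtx w q α β x x' V₁ V₂ V₃ V₁' V₂') (g : F') :
    UnitAt V₃ (α g) ↔ UnitAt V₂' g := over_unitAt (ov_α₃ T) g

theorem unitAt_β₁ (T : TripleCtx w q α β x x' V₁ V₂ V₃ V₁' V₂') (g : F') :
    UnitAt V₁ (β g) ↔ UnitAt V₁' g := over_unitAt (ov_β₁ T) g

theorem unitAt_β₂ (T : TripleCtx w q α β x x' V₁ V₂ V₃ V₁' V₂') (g : F') :
    UnitAt V₂ (β g) ↔ UnitAt V₂' g := over_unitAt (ov_β₂ T) g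

theorem unitAt_β₃ (T : TripleCtx w q α β x x' V₁ V₂ V₃ V₁' V₂') (g : F') :
    UnitAt V₃ (β g) ↔ UnitAt V₂' g := over_unitAt (ov_β₃ T) g

/-! ### (P2) congruences -/

theorem congr_α₁ (T : TripleCtx w q α β x x' V₁ V₂ V₃ V₁' V₂') (g h : F') :
    α g - α h ∈ V₁.nonunits ↔ g - h ∈ V₁'.nonunits := over_sub_mem_nonunits (ov_α₁ T) g h

theorem congr_α₂ (T : TripleCtx w q α β x x' V₁ V₂ V₃ V₁' V₂') (g h : F') :
    α g - α h ∈ V₂.nonunits ↔ g - h ∈ V₁'.nonunits := over_sub_mem_nonunits (ov_α₂ T) g h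

theorem congr_α₃ (T : TripleCtx w q α β x x' V₁ V₂ V₃ V₁' V₂') (g h : F') :
    α g - α h ∈ V₃.nonunits ↔ g - h ∈ V₂'.nonunits := over_sub_mem_nonunits (ov_α₃ T) g h

theorem congr_β₁ (T : TripleCtx w q α β x x' V₁ V₂ V₃ V₁' V₂') (g h : F') :
    β g - β h ∈ V₁.nonunits ↔ g - h ∈ V₁'.nonunits := over_sub_mem_nonunits (ov_β₁ T) g h

theorem congr_β₂ (T : TripleCtx w q α β x x' V₁ V₂ V₃ V₁' V₂') (g h : F') :
    β g - β h ∈ V₂.nonunits ↔ g - h ∈ V₂'.nonunits := over_sub_mem_nonunits (ov_β₂ T) g h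

theorem congr_β₃ (T : TripleCtx w q α β x x' V₁ V₂ V₃ V₁' V₂') (g h : F') :
    β g - β h ∈ V₃.nonunits ↔ g - h ∈ V₂'.nonunits := over_sub_mem_nonunits (ov_β₃ T) g h

/-! ### residue lifts (valuation form) -/

/-- The four residue-degree-one lifts and the two purely inseparable ones, in valuation form. -/
theorem res_lifts_of_ctx (hw : Irreducible w) (hq : 2 ≤ q)
    (T : TripleCtx w q α β x x' V₁ V₂ V₃ V₁' V₂') :
    (∀ y : F, V₁.valuation y = 1 → ∃ a : F', V₁.valuation (y - (α : F' →+* F) a) < 1) ∧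
    (∀ y : F, V₂.valuation y = 1 → ∃ a : F', V₂.valuation (y - (α : F' →+* F) a) < 1) ∧
    (∀ y : F, V₃.valuation y = 1 → ∃ c : F', V₃.valuation (y ^ q - (α : F' →+* F) c) < 1) ∧
    (∀ y : F, V₁.valuation y = 1 → ∃ c : F', V₁.valuation (y ^ q - (β : F' →+* F) c) < 1) ∧
    (∀ y : F, V₂.valuation y = 1 → ∃ a : F', V₂.valuation (y - (β : F' →+* F) a) < 1) ∧
    (∀ y : F, V₃.valuation y = 1 → ∃ a : F', V₃.valuation (y - (β : F' →+* F) a) < 1) := by
  obtain ⟨s₁, s₂, s₃⟩ := Fermat.Agent.S36.H919.h919_isSheet_of_ctx hq T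
  haveI : CharZero F := charZero_of_injective_algebraMap (algebraMap E F).injective
  haveI : FiniteDimensional (baseField R x) F :=
    Fermat.Agent.S36.H919.h919_finiteDimensional E T.hfin
  have hinj : Function.Injective (algebraMap R F) := Fermat.Agent.S36.H919.h919_injective E
  have hxR : Transcendental R x := Fermat.Agent.S36.H919.h919_transcendental E T.hx
  refine ⟨?_, ?_, ?_, ?_, ?_, ?_⟩
  · exact res_lift_of_chart hinj hw.prime hxR s₁ (α : F' →+* F)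
      (fun b hb => let ⟨b', _, h⟩ := T.res_α₁ b hb; ⟨b', h⟩)
  · exact res_lift_of_chart hinj hw.prime hxR s₂ (α : F' →+* F)
      (fun b hb => let ⟨b', _, h⟩ := T.res_α₂ b hb; ⟨b', h⟩)
  · intro y hy
    refine ⟨S29.H395.normAlong α y, ?_⟩
    have h := T.nr_α₂ y (unitAt_iff.2 hy)
    rw [← Valuation.map_neg, neg_sub]
    exact (ValuationSubring.mem_nonunits_iff V₃).1 h
  · intro y hy
    refine ⟨S29.H395.normAlong β y, ?_⟩
    have h := T.nr_β₂ y (unitAt_iff.2 hy)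
    rw [← Valuation.map_neg, neg_sub]
    exact (ValuationSubring.mem_nonunits_iff V₁).1 h
  · exact res_lift_of_chart hinj hw.prime hxR s₂ (β : F' →+* F)
      (fun b hb => let ⟨b', _, h⟩ := T.res_β₂ b hb; ⟨b', h⟩)
  · exact res_lift_of_chart hinj hw.prime hxR s₃ (β : F' →+* F)
      (fun b hb => let ⟨b', _, h⟩ := T.res_β₃ b hb; ⟨b', h⟩)

/-- **The two norm tables of a three-component context** (as in `H586.leafStepA`). -/
theorem normTables_of_ctx (hw : Irreducible w) (hq : q.Prime)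
    (T : TripleCtx w q α β x x' V₁ V₂ V₃ V₁' V₂') :
    ∃ π : F, UnifAt V₂ π ∧ UnitAt V₂ (algebraMap R F w * (π ^ (q - 1))⁻¹) ∧
      NormTable (α : F' →+* F) (S29.H395.normAlong α) q (algebraMap R F' w) π
        V₁' V₂' V₁ V₂ V₃ ∧
      NormTable (β : F' →+* F) (S29.H395.normAlong β) q (algebraMap R F' w) π
        V₂' V₁' V₃ V₂ V₁ := by
  haveI := T.dvr₁
  haveI := T.dvr₂
  haveI := T.dvr₃
  obtain ⟨π, hπ, hram⟩ := T.ram₂
  obtain ⟨rα₁, rα₂, -, -, rβ₂, rβ₃⟩ := res_lifts_of_ctx hw hq.two_le T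
  have hαw : α (algebraMap R F' w) = algebraMap R F w := by
    rw [IsScalarTower.algebraMap_apply R E F', α.commutes,
      ← IsScalarTower.algebraMap_apply R E F]
  have hβw : β (algebraMap R F' w) = algebraMap R F w := by
    rw [IsScalarTower.algebraMap_apply R E F', β.commutes,
      ← IsScalarTower.algebraMap_apply R E F]
  refine ⟨π, hπ, hram, ?_, ?_⟩
  · exact normTable_of_fields α q hq.pos (algebraMap R F' w) (algebraMap R F w) π hαw V₁' V₂'
      V₁ V₂ V₃ T.unif₁ T.unif₃ hπ hram T.comap_α₁ T.comap_α₂ T.comap_α₃ rα₁ rα₂ (T.nv_α π hπ)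
      T.nr_α₁ T.nr_α₂
  · exact normTable_of_fields β q hq.pos (algebraMap R F' w) (algebraMap R F w) π hβw V₂' V₁'
      V₃ V₂ V₁ T.unif₃ T.unif₁ hπ hram T.comap_β₃ T.comap_β₂ T.comap_β₁ rβ₃ rβ₂
      (fun y au ar ai hy hu hr hi => T.nv_β π hπ y ai ar au hy hi hr hu) T.nr_β₁ T.nr_β₂

/-! ### (P3) `m`-th power residues -/

theorem isResPow_α₁ (hw : Irreducible w) (hq : 2 ≤ q)
    (T : TripleCtx w q α β x x' V₁ V₂ V₃ V₁' V₂') (m : ℕ) (g : F') :
    IsResPow m V₁ (α g) ↔ IsResPow m V₁' g :=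
  ⟨isResPow_down_res (φ := (α : F' →+* F)) (ov_α₁ T) (res_lifts_of_ctx hw hq T).1,
    isResPow_up (φ := (α : F' →+* F)) (ov_α₁ T)⟩

theorem isResPow_α₂ (hw : Irreducible w) (hq : 2 ≤ q)
    (T : TripleCtx w q α β x x' V₁ V₂ V₃ V₁' V₂') (m : ℕ) (g : F') :
    IsResPow m V₂ (α g) ↔ IsResPow m V₁' g :=
  ⟨isResPow_down_res (φ := (α : F' →+* F)) (ov_α₂ T) (res_lifts_of_ctx hw hq T).2.1,
    isResPow_up (φ := (α : F' →+* F)) (ov_α₂ T)⟩

theorem isResPow_α₃ (hw : Irreducible w) (hq : 2 ≤ q)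
    (T : TripleCtx w q α β x x' V₁ V₂ V₃ V₁' V₂') {m : ℕ} (hm : 0 < m)
    (hqm : Nat.Coprime q m) (g : F') :
    IsResPow m V₃ (α g) ↔ IsResPow m V₂' g :=
  ⟨isResPow_down_insep (φ := (α : F' →+* F)) (ov_α₃ T) (res_lifts_of_ctx hw hq T).2.2.1 hm hqm,
    isResPow_up (φ := (α : F' →+* F)) (ov_α₃ T)⟩

theorem isResPow_β₁ (hw : Irreducible w) (hq : 2 ≤ q)
    (T : TripleCtx w q α β x x' V₁ V₂ V₃ V₁' V₂') {m : ℕ} (hm : 0 < m)
    (hqm : Nat.Coprime q m) (g : F') :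
    IsResPow m V₁ (β g) ↔ IsResPow m V₁' g :=
  ⟨isResPow_down_insep (φ := (β : F' →+* F)) (ov_β₁ T) (res_lifts_of_ctx hw hq T).2.2.2.1
      hm hqm,
    isResPow_up (φ := (β : F' →+* F)) (ov_β₁ T)⟩

theorem isResPow_β₂ (hw : Irreducible w) (hq : 2 ≤ q)
    (T : TripleCtx w q α β x x' V₁ V₂ V₃ V₁' V₂') (m : ℕ) (g : F') :
    IsResPow m V₂ (β g) ↔ IsResPow m V₂' g :=
  ⟨isResPow_down_res (φ := (β : F' →+* F)) (ov_β₂ T) (res_lifts_of_ctx hw hq T).2.2.2.2.1,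
    isResPow_up (φ := (β : F' →+* F)) (ov_β₂ T)⟩

theorem isResPow_β₃ (hw : Irreducible w) (hq : 2 ≤ q)
    (T : TripleCtx w q α β x x' V₁ V₂ V₃ V₁' V₂') (m : ℕ) (g : F') :
    IsResPow m V₃ (β g) ↔ IsResPow m V₂' g :=
  ⟨isResPow_down_res (φ := (β : F' →+* F)) (ov_β₃ T) (res_lifts_of_ctx hw hq T).2.2.2.2.2,
    isResPow_up (φ := (β : F' →+* F)) (ov_β₃ T)⟩

/-! ### (LIFT) -/

theorem exists_lift_α₁ (hw : Irreducible w) (hq : 2 ≤ q)
    (T : TripleCtx w q α β x x' V₁ V₂ V₃ V₁' V₂') {y : F} (hy : UnitAt V₁ y) :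
    ∃ a : F', UnitAt V₁' a ∧ y / α a - 1 ∈ V₁.nonunits := by
  obtain ⟨a, ha, hpu⟩ := exists_lift_res (φ := (α : F' →+* F)) (ov_α₁ T)
    (res_lifts_of_ctx hw hq T).1 (unitAt_iff.1 hy)
  exact ⟨a, unitAt_iff.2 ha, pu_iff.1 hpu⟩

theorem exists_lift_α₂ (hw : Irreducible w) (hq : 2 ≤ q)
    (T : TripleCtx w q α β x x' V₁ V₂ V₃ V₁' V₂') {y : F} (hy : UnitAt V₂ y) :
    ∃ a : F', UnitAt V₁' a ∧ y / α a - 1 ∈ V₂.nonunits := by
  obtain ⟨a, ha, hpu⟩ := exists_lift_res (φ := (α : F' →+* F)) (ov_α₂ T)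
    (res_lifts_of_ctx hw hq T).2.1 (unitAt_iff.1 hy)
  exact ⟨a, unitAt_iff.2 ha, pu_iff.1 hpu⟩

theorem exists_lift_α₃ (hw : Irreducible w) (hq : 2 ≤ q)
    (T : TripleCtx w q α β x x' V₁ V₂ V₃ V₁' V₂') {m : ℕ} (hqm : Nat.Coprime q m)
    {y : F} (hy : UnitAt V₃ y) :
    ∃ (a : F') (G : F), UnitAt V₂' a ∧ UnitAt V₃ G ∧ y / (α a * G ^ m) - 1 ∈ V₃.nonunits := by
  obtain ⟨a, G, ha, hG, hpu⟩ := exists_lift_insep (φ := (α : F' →+* F)) (ov_α₃ T)
    (res_lifts_of_ctx hw hq T).2.2.1 hqm (unitAt_iff.1 hy)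
  exact ⟨a, G, unitAt_iff.2 ha, unitAt_iff.2 hG, pu_iff.1 hpu⟩

theorem exists_lift_β₁ (hw : Irreducible w) (hq : 2 ≤ q)
    (T : TripleCtx w q α β x x' V₁ V₂ V₃ V₁' V₂') {m : ℕ} (hqm : Nat.Coprime q m)
    {y : F} (hy : UnitAt V₁ y) :
    ∃ (a : F') (G : F), UnitAt V₁' a ∧ UnitAt V₁ G ∧ y / (β a * G ^ m) - 1 ∈ V₁.nonunits := by
  obtain ⟨a, G, ha, hG, hpu⟩ := exists_lift_insep (φ := (β : F' →+* F)) (ov_β₁ T)
    (res_lifts_of_ctx hw hq T).2.2.2.1 hqm (unitAt_iff.1 hy)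
  exact ⟨a, G, unitAt_iff.2 ha, unitAt_iff.2 hG, pu_iff.1 hpu⟩

theorem exists_lift_β₂ (hw : Irreducible w) (hq : 2 ≤ q)
    (T : TripleCtx w q α β x x' V₁ V₂ V₃ V₁' V₂') {y : F} (hy : UnitAt V₂ y) :
    ∃ a : F', UnitAt V₂' a ∧ y / β a - 1 ∈ V₂.nonunits := by
  obtain ⟨a, ha, hpu⟩ := exists_lift_res (φ := (β : F' →+* F)) (ov_β₂ T)
    (res_lifts_of_ctx hw hq T).2.2.2.2.1 (unitAt_iff.1 hy)
  exact ⟨a, unitAt_iff.2 ha, pu_iff.1 hpu⟩

theorem exists_lift_β₃ (hw : Irreducible w) (hq : 2 ≤ q)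
    (T : TripleCtx w q α β x x' V₁ V₂ V₃ V₁' V₂') {y : F} (hy : UnitAt V₃ y) :
    ∃ a : F', UnitAt V₂' a ∧ y / β a - 1 ∈ V₃.nonunits := by
  obtain ⟨a, ha, hpu⟩ := exists_lift_res (φ := (β : F' →+* F)) (ov_β₃ T)
    (res_lifts_of_ctx hw hq T).2.2.2.2.2 (unitAt_iff.1 hy)
  exact ⟨a, unitAt_iff.2 ha, pu_iff.1 hpu⟩

/-! ### (P4) -/

theorem divisibleDiv_α {m : ℕ} {g : F'} (h : Fermat.Agent.A2.DivisibleDiv E m g) :
    Fermat.Agent.A2.DivisibleDiv E m (α g) := divisibleDiv_map α h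

theorem divisibleDiv_β {m : ℕ} {g : F'} (h : Fermat.Agent.A2.DivisibleDiv E m g) :
    Fermat.Agent.A2.DivisibleDiv E m (β g) := divisibleDiv_map β h

/-! ### the linear algebra of the subtraction step -/

/-- **The reduction table is onto** (raw form, no divisibility).  For a unit `u` of
`V₁, V₂, V₃` and `m` prime to `q` there are units `y` of `V₁'` and `t, z` of `V₂'` such that for
ALL `g, g' ∈ F'` with reductions `g ~ (1, z)`, `g' ~ (y, t)` modulo `m`-th powers on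
`(V₁', V₂')` the quotient `u / (α g · β g')` has `m`-th power residues at `V₁`, `V₂`, `V₃`.
If `u` has an `m`-th power residue at `V₁` one can take `y = 1`. -/
theorem pull_sub_raw (hw : Irreducible w) (hq : 2 ≤ q)
    (T : TripleCtx w q α β x x' V₁ V₂ V₃ V₁' V₂') {m : ℕ} (hm : 0 < m)
    (hqm : Nat.Coprime q m) {u : F} (hu₁ : UnitAt V₁ u) (hu₂ : UnitAt V₂ u)
    (hu₃ : UnitAt V₃ u) :
    ∃ y t z : F', UnitAt V₁' y ∧ UnitAt V₂' t ∧ UnitAt V₂' z ∧
      (IsResPow m V₁ u → y = 1) ∧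
      ∀ g g' : F', IsResPow m V₁' g → IsResPow m V₂' (g / z) →
        IsResPow m V₁' (g' / y) → IsResPow m V₂' (g' / t) →
        IsResPow m V₁ (u / (α g * β g')) ∧ IsResPow m V₂ (u / (α g * β g')) ∧
          IsResPow m V₃ (u / (α g * β g')) := by
  classical
  -- `t`: the residue of `u` at `V₂`, read at `V₂'` through `β`
  obtain ⟨t, ht, hput⟩ := exists_lift_res (φ := (β : F' →+* F)) (ov_β₂ T)
    (res_lifts_of_ctx hw hq T).2.2.2.2.1 (unitAt_iff.1 hu₂)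
  -- `y`: the residue of `u` at `V₁`, read at `V₁'` through `β` (purely inseparable)
  have hy : ∃ y : F', V₁'.valuation y = 1 ∧ IsResPow m V₁ (u / (β : F' →+* F) y) ∧
      (IsResPow m V₁ u → y = 1) := by
    by_cases h1 : IsResPow m V₁ u
    · refine ⟨1, map_one _, ?_, fun _ => rfl⟩
      rw [map_one, div_one]
      exact h1
    · obtain ⟨y, G, hy1, hG, hpu⟩ := exists_lift_insep (φ := (β : F' →+* F)) (ov_β₁ T)
        (res_lifts_of_ctx hw hq T).2.2.2.1 hqm (unitAt_iff.1 hu₁)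
      refine ⟨y, hy1, ⟨G, hG, ?_⟩, fun h => absurd h h1⟩
      have hβy : V₁.valuation ((β : F' →+* F) y) = 1 := (over_val_eq_one (ov_β₁ T) y).2 hy1
      have e : u / (β : F' →+* F) y / G ^ m = u / ((β : F' →+* F) y * G ^ m) := by
        rw [div_div]
      rw [e]
      exact hpu
  obtain ⟨y, hy1, hyres, hyone⟩ := hy
  -- `z`: the residue of `u / β t` at `V₃`, read at `V₂'` through `α` (purely inseparable)
  have hβt₃ : V₃.valuation ((β : F' →+* F) t) = 1 := (over_val_eq_one (ov_β₃ T) t).2 ht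
  have hut₃ : V₃.valuation (u / (β : F' →+* F) t) = 1 := by
    rw [map_div₀, unitAt_iff.1 hu₃, hβt₃, div_one]
  obtain ⟨z, G, hz1, hG, hpuz⟩ := exists_lift_insep (φ := (α : F' →+* F)) (ov_α₃ T)
    (res_lifts_of_ctx hw hq T).2.2.1 hqm hut₃
  refine ⟨y, t, z, unitAt_iff.2 hy1, unitAt_iff.2 ht, unitAt_iff.2 hz1, hyone, ?_⟩
  intro g g' hg₁ hg₂ hg'₁ hg'₂
  -- nonvanishing
  have hy0 : y ≠ 0 := ne_of_val hy1
  have ht0 : t ≠ 0 := ne_of_val ht
  have hz0 : z ≠ 0 := ne_of_val hz1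
  have hg0 : g ≠ 0 := hg₁.ne_zero
  have hg'0 : g' ≠ 0 := by
    intro h
    have := hg'₁.ne_zero
    rw [h, zero_div] at this
    exact this rfl
  have hαg0 : (α : F' →+* F) g ≠ 0 := (map_ne_zero _).2 hg0
  have hβg'0 : (β : F' →+* F) g' ≠ 0 := (map_ne_zero _).2 hg'0
  have hβy0 : (β : F' →+* F) y ≠ 0 := (map_ne_zero _).2 hy0
  have hβt0 : (β : F' →+* F) t ≠ 0 := (map_ne_zero _).2 ht0
  have hαz0 : (α : F' →+* F) z ≠ 0 := (map_ne_zero _).2 hz0
  have hu0 : u ≠ 0 := hu₁.1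
  refine ⟨?_, ?_, ?_⟩
  · -- at `V₁`: `α g ~ 1`, `β g' ~ β y ~ u`
    have a1 : IsResPow m V₁ ((α : F' →+* F) g) := isResPow_up (ov_α₁ T) hg₁
    have a2 : IsResPow m V₁ ((β : F' →+* F) (g' / y)) := isResPow_up (ov_β₁ T) hg'₁
    have e : u / (α g * β g') =
        (u / (β : F' →+* F) y) / ((α : F' →+* F) g * (β : F' →+* F) (g' / y)) := by
      rw [map_div₀]
      show u / ((α : F' →+* F) g * (β : F' →+* F) g') = _
      field_simp
    rw [e]
    exact hyres.div (a1.mul a2)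
  · -- at `V₂`: `α g ~ 1`, `β g' ~ β t ≡ u`
    have a1 : IsResPow m V₂ ((α : F' →+* F) g) := isResPow_up (ov_α₂ T) hg₁
    have a2 : IsResPow m V₂ ((β : F' →+* F) (g' / t)) := isResPow_up (ov_β₂ T) hg'₂
    have a3 : IsResPow m V₂ (u / (β : F' →+* F) t) := isResPow_of_pu hput
    have e : u / (α g * β g') =
        (u / (β : F' →+* F) t) / ((α : F' →+* F) g * (β : F' →+* F) (g' / t)) := by
      rw [map_div₀]
      show u / ((α : F' →+* F) g * (β : F' →+* F) g') = _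
      field_simp
    rw [e]
    exact a3.div (a1.mul a2)
  · -- at `V₃`: `α g ~ α z ~ u / β t`, `β g' ~ β t`
    have a1 : IsResPow m V₃ ((α : F' →+* F) (g / z)) := isResPow_up (ov_α₃ T) hg₂
    have a2 : IsResPow m V₃ ((β : F' →+* F) (g' / t)) := isResPow_up (ov_β₃ T) hg'₂
    have a3 : IsResPow m V₃ (u / (β : F' →+* F) t / (α : F' →+* F) z) := by
      refine ⟨G, hG, ?_⟩
      have e : u / (β : F' →+* F) t / (α : F' →+* F) z / G ^ m =
          u / (β : F' →+* F) t / ((α : F' →+* F) z * G ^ m) := by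
        rw [div_div]
      rw [e]
      exact hpuz
    have e : u / (α g * β g') =
        (u / (β : F' →+* F) t / (α : F' →+* F) z) /
          ((α : F' →+* F) (g / z) * (β : F' →+* F) (g' / t)) := by
      rw [map_div₀, map_div₀]
      show u / ((α : F' →+* F) g * (β : F' →+* F) g') = _
      field_simp
    rw [e]
    exact a3.div (a1.mul a2)

end Ctx

end Fermat.Agent.S59.LoSqC.H27

end
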