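import Fermat.Agent.S59.LoSqC.H27.SurjEAbs
import Fermat.Agent.Ribet.H868.TameDescent
import Fermat.Agent.Ribet.H698.RedMapGlue
import Fermat.Agent.Ribet.H232.DepthE
import Fermat.Agent.Ribet.H997.RedField
import Fermat.Agent.Ribet.H997.DictDesc
import Fermat.Agent.Ribet.H884.EisSpec
import Fermat.Agent.S36.H586.LeafStepA
import Fermat.Agent.A2.T1.H669.T1

/-!
# S59 moonshot, cell (C) LO-SQ, adapter SURJ-E (helper27)

From the `J`-form of the count at level `N` (`M ∣ N`, in the application `N = M q`; classes of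
`J₀(N)[m]` fixed by the inertia group `I_A`, Kummer generators over `ℚ̄`, reductions
`H884.IsRedInf` / `IsRedZero` by `t`-expansions) to the `E`-form consumed by the wall at level
`M q²` (`E ⊇ ℚ̄^{I_A}` a good level, `V∞`, `V₀ = V∞ ∘ W` the two vertical valuation rings of
`F_E(N)`).

* `descRed` (A) : an inertia-fixed `m`-torsion class with a Kummer generator `f` of reductions
  `r₁`, `r₂` has a Kummer generator `ι y`, `y ∈ F_E(N)`, `m ∣ div y`, of reductions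
  `r₁ s₁ ^ m`, `r₂ s₂ ^ m`;
* `pu_of_isRedInf`, `pu_of_isRedZero` (B) : reductions in multiplicative form
  `y ≡ b · w ^ j · g ^ m`;
* `rSurjAt_of_gen` (C) : the body of `H987.RSurjAt` (with `h = 1`) for `b ∈ F_E(N)`, from a
  generator with reductions `(1, red₀ b)` modulo constants and `m`-th powers and the vanishing of
  the slope.
-/

set_option autoImplicit false
set_option linter.unusedSectionVars false
set_option linter.unusedVariables false
set_option linter.style.haveILetI false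
set_option synthInstance.maxHeartbeats 400000
set_option maxHeartbeats 1600000

noncomputable section

namespace Fermat.Agent.S59.LoSqC.H27

open ModularCurve HahnSeries AlgebraicCurve
open Fermat.Agent.A2 Fermat.Agent.A2.Mod
open Fermat.Agent.S24 Fermat.Agent.A2.H528 Fermat.Agent.A2.T1.H669 Fermat.Agent.Ribet.H884
open Fermat.Agent.A2.H708
open Fermat.Agent.A2.IF.H429 (inertiaField)
open Fermat.Agent.S36.H586 (PU IsOrd)
open Fermat.Agent.S36.Eng (UnitAt UnifAt)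

local notation "Q̄" => AlgebraicClosure ℚ

/-! ## (A) descent of the Kummer generator, with its reductions -/

section A

variable (N : ℕ) [NeZero N]

/-- An element of `F_E(N)` seen in `F_{E'}(N)`, `E ≤ E'`. -/
theorem exists_iota_up {E E' : IntermediateField ℚ Q̄} (hE : E ≤ E')
    (y : Mod.FE E N) :
    ∃ y' : Mod.FE E' N, iota E' (modularFunctionFieldFull N) y'
      = iota E (modularFunctionFieldFull N) y := by
  refine ⟨⟨coeffMap (IntermediateField.inclusion hE : E →+* E') (y : LaurentSeries E),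
    Fermat.Agent.S18.H602.coeffMap_mem_laurentBaseChange (modularFunctionFieldFull N) _ y.2⟩, ?_⟩
  apply Subtype.ext
  rw [coe_iota, coe_iota]
  show coeffMap (algebraMap E' Q̄) (coeffMap (IntermediateField.inclusion hE : E →+* E')
    (y : LaurentSeries E)) = _
  rw [ModularCurve.coeffMap_coeffMap]
  exact ModularCurve.coeffMap_congr (RingHom.ext fun _ => rfl) _

/-- **(A) DESC-RED.** -/
theorem descRed {q : ℕ} (hq : q.Prime) (A : ValuationSubring Q̄) (hA : A.LiesOverPrime q)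
    (E : IntermediateField ℚ Q̄) (hEI : inertiaField A ≤ E)
    (m : ℕ) (x : JZero N) (hx : m • x = 0)
    (hfix : ∀ σ ∈ A.inertiaSubgroupIn ℚ, σ • x = x)
    {f : FF N} (hf : IsKummerGen N m f x) {r₁ r₂ : LaurentSeries (kA A)}
    (h₁ : IsRedInf N A f r₁) (h₂ : IsRedZero N A f r₂) :
    ∃ y : Mod.FE E N, y ≠ 0 ∧ DivisibleDiv E m y ∧
      IsKummerGen N m (iota E (modularFunctionFieldFull N) y) x ∧
      ∃ (G : FF N) (s₁ s₂ : LaurentSeries (kA A)), G ≠ 0 ∧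
        IsRedInf N A G s₁ ∧ IsRedZero N A G s₂ ∧
        IsRedInf N A (iota E (modularFunctionFieldFull N) y) (r₁ * s₁ ^ m) ∧
        IsRedZero N A (iota E (modularFunctionFieldFull N) y) (r₂ * s₂ ^ m) := by
  obtain ⟨y₀, hy₀0, hyK₀, -⟩ := Fermat.Agent.Ribet.H868.exists_fixed_kummerGen N m A x hx hfix
  obtain ⟨y, hy⟩ := exists_iota_up N hEI y₀
  have hyK : IsKummerGen N m (iota E (modularFunctionFieldFull N) y) x := by
    rw [hy]
    exact hyK₀
  have hy0 : y ≠ 0 := by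
    rintro rfl
    rw [map_zero] at hyK
    exact hyK.1 rfl
  have hyD : DivisibleDiv E m y := by
    obtain ⟨-, D, -, hD⟩ := hyK
    refine Fermat.Agent.A2.T1.H669.divisibleDiv_of_ord E (modularFunctionFieldFull N) m y hy0
      fun v => ?_
    rw [hD v]
    exact dvd_mul_right _ _
  obtain ⟨c, G, hc, hG, hyf⟩ := Fermat.Agent.Ribet.H698.RedMap.kummer_ratio hf hyK
  obtain ⟨s₁, hs₁⟩ := Fermat.Agent.Ribet.H997.exists_isRedInf hq hA hG
  have hwG : wF N G ≠ 0 := by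
    intro h
    exact hG ((map_eq_zero_iff _ (wF N).injective).1 h)
  obtain ⟨s₂, hs₂⟩ := Fermat.Agent.Ribet.H997.exists_isRedInf (N := N) hq hA hwG
  refine ⟨y, hy0, hyD, hyK, G, s₁, s₂, hG, hs₁, hs₂, ?_, ?_⟩
  · rw [hyf]
    exact (IsRedInf.const_mul h₁ hc).mul (IsRedInf.pow hs₁ m)
  · rw [hyf]
    exact (IsRedZero.const_mul h₂ hc).mul (IsRedZero.pow hs₂ m)

end A

/-! ## (B) reductions in multiplicative form at level `E` -/

section B

variable {A : ValuationSubring Q̄} {E : IntermediateField ℚ Q̄} {N : ℕ} [NeZero N]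

/-- A reduction may be scaled by a nonzero constant of `k` (as `H924.isRedSer_C_mul`). -/
theorem isRedInf_C_mul27 {f : FF N} {r : LaurentSeries (kA A)} (h : IsRedInf N A f r)
    {u : kA A} (hu : u ≠ 0) : IsRedInf N A f (HahnSeries.C u * r) := by
  obtain ⟨c₀, U₁, U₂, hc₀, h₁, h₂, he, hr⟩ := h
  obtain ⟨a, rfl⟩ := IsLocalRing.residue_surjective (R := A) u
  have ha0 : (a : Q̄) ≠ 0 := by
    intro h0
    apply hu
    have : a = 0 := Subtype.ext h0
    rw [this, map_zero]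
  have hred : red A (cstA A a * U₁) = HahnSeries.C (IsLocalRing.residue A a) * red A U₁ := by
    rw [map_mul, red_cstA]
    rfl
  refine ⟨c₀ * (a : Q̄)⁻¹, cstA A a * U₁, U₂, mul_ne_zero hc₀ (inv_ne_zero ha0), ?_, h₂, ?_, ?_⟩
  · rw [hred]
    refine mul_ne_zero ?_ h₁
    intro h0
    apply hu
    have := congrArg (fun z : LaurentSeries (kA A) => z.coeff 0) h0
    simpa using this
  · rw [he, map_mul, incl_cstA, cst_mul, mul_assoc, ← mul_assoc (cst (a : Q̄)⁻¹),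
      cst_inv_mul_cst ha0, one_mul]
  · rw [hred, mul_assoc, hr]

/-- `w` is a uniformiser of `V∞`. -/
theorem unifAt_vinf (hdvr : IsDiscreteValuationRing (Mod.RE A E)) {w : Mod.RE A E}
    (hw : Irreducible w) {V : ValuationSubring (Mod.FE E N)} (hV : Mod.IsVinf A E N V) :
    UnifAt V (Mod.cE A E N w) := by
  obtain ⟨hU, -, -⟩ := Mod.H553.vinfBasic A E w N (NeZero.ne N) hdvr hw V hV
  have h0 : Mod.cE A E N w ≠ 0 := by
    intro h
    apply hU.inv_not_mem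
    rw [h, inv_zero]
    exact V.zero_mem
  have hnu : Mod.cE A E N w ∈ V.nonunits := by
    rw [ValuationSubring.mem_nonunits_iff]
    refine lt_of_le_of_ne ((V.valuation_le_one_iff _).2 hU.mem) ?_
    intro h1
    apply hU.inv_not_mem
    rw [← V.valuation_le_one_iff, map_inv₀, h1, inv_one]
  refine ⟨h0, hnu, fun f hf => ?_⟩
  rw [ValuationSubring.mem_nonunits_iff] at hf
  by_cases hf0 : f = 0
  · rw [hf0, zero_mul]
    exact V.zero_mem
  refine hU.gen f ((V.valuation_le_one_iff _).1 hf.le) ?_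
  intro hinv
  have h1 : V.valuation f⁻¹ ≤ 1 := (V.valuation_le_one_iff _).2 hinv
  rw [map_inv₀] at h1
  have hvf : V.valuation f ≠ 0 := (Valuation.ne_zero_iff _).2 hf0
  have h2 : 1 ≤ V.valuation f := by
    rwa [inv_le_one₀ (zero_lt_iff.2 hvf)] at h1
  exact absurd hf (not_lt.2 h2)

/-- Reduction a constant ⟹ principal unit up to `w ^ j · v ^ m`, `v ∈ E`. -/
theorem pu_of_isRedInf_const {q : ℕ} (hq : q.Prime) (hA : A.LiesOverPrime q)
    (hE : GoodField A E) {w : Mod.RE A E} (hw : Irreducible w)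
    {V : ValuationSubring (Mod.FE E N)} (hV : Mod.IsVinf A E N V) {m : ℕ} (hqm : ¬ q ∣ m)
    {z : Mod.FE E N} {c : kA A} (hc : c ≠ 0)
    (hz : IsRedInf N A (iota E (modularFunctionFieldFull N) z) (HahnSeries.C c)) :
    ∃ (j : ℤ) (v : E), v ≠ 0 ∧
      PU V (z / (Mod.cE A E N w ^ j * (algebraMap E (Mod.FE E N) v) ^ m)) := by
  haveI := hE.dvr
  haveI := hE.henselian
  haveI := hE.algClosed
  have hsurj : Function.Surjective (Fermat.Agent.Ribet.H232.resRE A E) :=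
    Fermat.Agent.Ribet.H232.resRE_surjective E hq hA
  have h1 : IsRedInf N A (iota E (modularFunctionFieldFull N) z) 1 := by
    have h := isRedInf_C_mul27 hz (inv_ne_zero hc)
    rwa [← map_mul, inv_mul_cancel₀ hc, map_one] at h
  obtain ⟨e, he0, he⟩ := Fermat.Agent.Ribet.H232.depthE_of_isRedInf_one hsurj hw hV h1
  obtain ⟨s, v, hv0, hev⟩ := Fermat.Agent.S36.H586.const_eq_zpow_mul_pow w hw q m hq
    (Fermat.Agent.A2.T1.H669.natCast_mem_maximalIdeal_RE E hA) hqm e he0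
  refine ⟨s, v, hv0, ?_⟩
  have hce : Mod.cE A E N w ^ s * (algebraMap E (Mod.FE E N) v) ^ m
      = algebraMap E (Mod.FE E N) e := by
    rw [hev, map_mul, map_zpow₀, map_pow]
    rfl
  rw [hce, div_eq_mul_inv]
  have hU := unifAt_vinf hE.dvr hw hV
  show V.valuation (z * (algebraMap E (Mod.FE E N) e)⁻¹ - 1) < 1
  have h2 : z * (algebraMap E (Mod.FE E N) e)⁻¹ - 1
      = (z * (algebraMap E (Mod.FE E N) e)⁻¹ - 1) * (Mod.cE A E N w)⁻¹ * Mod.cE A E N w := by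
    rw [mul_assoc, inv_mul_cancel₀ hU.1, mul_one]
  rw [h2, map_mul]
  have h3 : V.valuation ((z * (algebraMap E (Mod.FE E N) e)⁻¹ - 1) * (Mod.cE A E N w)⁻¹) ≤ 1 :=
    (V.valuation_le_one_iff _).2 he
  have h4 : V.valuation (Mod.cE A E N w) < 1 := (ValuationSubring.mem_nonunits_iff V).1 hU.2.1
  exact mul_lt_one_of_nonneg_of_lt_one_right h3 zero_le h4

/-- **(B), `V∞`.**  If the reduction of `ι y` is `c · red(b) · s ^ m`, `c ∈ kˣ`,
`s ∈ k(X₀(M))`, `M ∣ N`, then `y ≡ b · w ^ j · g ^ m` modulo `𝔪_{V∞}`. -/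
theorem pu_of_isRedInf {q : ℕ} (hq : q.Prime) (hA : A.LiesOverPrime q)
    (hE : GoodField A E) {w : Mod.RE A E} (hw : Irreducible w)
    {V : ValuationSubring (Mod.FE E N)} (hV : Mod.IsVinf A E N V) {m : ℕ} (hqm : ¬ q ∣ m)
    {M : ℕ} (hMN : M ∣ N) {y b : Mod.FE E N} {ρ : LaurentSeries (kA A)}
    (hb : IsRedInf N A (iota E (modularFunctionFieldFull N) b) ρ)
    {c : kA A} (hc : c ≠ 0) {s : LaurentSeries (kA A)}
    (hs : s ∈ modularFunctionFieldFullC (kA A) M) (hs0 : s ≠ 0)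
    (hy : IsRedInf N A (iota E (modularFunctionFieldFull N) y)
      (HahnSeries.C c * ρ * s ^ m)) :
    ∃ (j : ℤ) (g : Mod.FE E N), g ≠ 0 ∧
      PU V (y / (b * (Mod.cE A E N w ^ j * g ^ m))) := by
  haveI := hE.dvr
  haveI := hE.algClosed
  have hsurj : Function.Surjective (Fermat.Agent.Ribet.H232.resRE A E) :=
    Fermat.Agent.Ribet.H232.resRE_surjective E hq hA
  obtain ⟨G, hG0, hG⟩ := Fermat.Agent.Ribet.H232.exists_isRedInf_level hsurj hMN hs hs0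
  have hρ0 : ρ ≠ 0 := hb.ne_zero
  have hb0 : b ≠ 0 := by
    rintro rfl
    exact hb.fun_ne_zero (by rw [map_zero]; rfl)
  have hz : IsRedInf N A (iota E (modularFunctionFieldFull N) (y * (b * G ^ m)⁻¹))
      (HahnSeries.C c) := by
    have h2 := IsRedInf.mul hy (IsRedInf.inv (IsRedInf.mul hb (IsRedInf.pow hG m)))
    have e : HahnSeries.C c * ρ * s ^ m * (ρ * s ^ m)⁻¹ = HahnSeries.C c := by
      have : ρ * s ^ m ≠ 0 := mul_ne_zero hρ0 (pow_ne_zero _ hs0)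
      rw [mul_assoc (HahnSeries.C c), mul_assoc, mul_inv_cancel₀ this, mul_one]
    rw [e] at h2
    rw [map_mul, map_inv₀, map_mul, map_pow]
    exact h2
  obtain ⟨j, v, hv0, hpu⟩ := pu_of_isRedInf_const hq hA hE hw hV hqm hc hz
  have hU := unifAt_vinf hE.dvr hw hV
  have hvF : algebraMap E (Mod.FE E N) v ≠ 0 := (_root_.map_ne_zero _).2 hv0
  refine ⟨j, G * algebraMap E (Mod.FE E N) v, mul_ne_zero hG0 hvF, ?_⟩
  have hwj : Mod.cE A E N w ^ j ≠ 0 := zpow_ne_zero _ hU.1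
  have e : y / (b * (Mod.cE A E N w ^ j * (G * algebraMap E (Mod.FE E N) v) ^ m))
      = y * (b * G ^ m)⁻¹ / (Mod.cE A E N w ^ j * (algebraMap E (Mod.FE E N) v) ^ m) := by
    rw [mul_pow]
    have h1 : G ^ m ≠ 0 := pow_ne_zero _ hG0
    have h2 : (algebraMap E (Mod.FE E N) v) ^ m ≠ 0 := pow_ne_zero _ hvF
    field_simp
  rw [e]
  exact hpu

/-- Membership along the Fricke involution. -/
theorem fricke_hov {V V₀ : ValuationSubring (Mod.FE E N)} (W : Mod.FE E N ≃ₐ[E] Mod.FE E N)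
    (hV₀ : V₀ = V.comap (W : Mod.FE E N →+* Mod.FE E N)) :
    ∀ a : Mod.FE E N, (W : Mod.FE E N →+* Mod.FE E N) a ∈ V ↔ a ∈ V₀ := by
  intro a
  rw [hV₀, ValuationSubring.mem_comap]

/-- `W` fixes the constants. -/
theorem fricke_cE (W : Mod.FE E N ≃ₐ[E] Mod.FE E N) (w : Mod.RE A E) :
    (W : Mod.FE E N →+* Mod.FE E N) (Mod.cE A E N w) = Mod.cE A E N w :=
  W.commutes _

/-- `w` is a uniformiser of `V₀`. -/
theorem unifAt_vzero (hdvr : IsDiscreteValuationRing (Mod.RE A E)) {w : Mod.RE A E}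
    (hw : Irreducible w) {V V₀ : ValuationSubring (Mod.FE E N)} (hV : Mod.IsVinf A E N V)
    (W : Mod.FE E N ≃ₐ[E] Mod.FE E N)
    (hV₀ : V₀ = V.comap (W : Mod.FE E N →+* Mod.FE E N)) :
    UnifAt V₀ (Mod.cE A E N w) := by
  have hU := unifAt_vinf hdvr hw hV
  have hov := fricke_hov W hV₀
  refine ⟨hU.1, ?_, fun f hf => ?_⟩
  · rw [← over_mem_nonunits hov, fricke_cE]
    exact hU.2.1
  · rw [← hov, map_mul, map_inv₀, fricke_cE]
    exact hU.2.2 _ ((over_mem_nonunits hov f).2 hf)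

/-- **(B), `V₀`.** -/
theorem pu_of_isRedZero {q : ℕ} (hq : q.Prime) (hA : A.LiesOverPrime q)
    (hE : GoodField A E) {w : Mod.RE A E} (hw : Irreducible w)
    {V V₀ : ValuationSubring (Mod.FE E N)} (hV : Mod.IsVinf A E N V)
    {W : Mod.FE E N ≃ₐ[E] Mod.FE E N} (hW : Mod.IsFricke E N W)
    (hV₀ : V₀ = V.comap (W : Mod.FE E N →+* Mod.FE E N))
    {m : ℕ} (hqm : ¬ q ∣ m)
    {M : ℕ} (hMN : M ∣ N) {y b : Mod.FE E N} {ρ : LaurentSeries (kA A)}
    (hb : IsRedZero N A (iota E (modularFunctionFieldFull N) b) ρ)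
    {c : kA A} (hc : c ≠ 0) {s : LaurentSeries (kA A)}
    (hs : s ∈ modularFunctionFieldFullC (kA A) M) (hs0 : s ≠ 0)
    (hy : IsRedZero N A (iota E (modularFunctionFieldFull N) y)
      (HahnSeries.C c * ρ * s ^ m)) :
    ∃ (j : ℤ) (g : Mod.FE E N), g ≠ 0 ∧
      PU V₀ (y / (b * (Mod.cE A E N w ^ j * g ^ m))) := by
  have hWι : ∀ z : Mod.FE E N, iota E (modularFunctionFieldFull N) (W z)
      = wF N (iota E (modularFunctionFieldFull N) z) :=
    fun z => Fermat.Agent.Ribet.H997.iotaN_fricke hW z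
  have hb' : IsRedInf N A (iota E (modularFunctionFieldFull N) (W b)) ρ := by
    rw [hWι]
    exact hb
  have hy' : IsRedInf N A (iota E (modularFunctionFieldFull N) (W y))
      (HahnSeries.C c * ρ * s ^ m) := by
    rw [hWι]
    exact hy
  obtain ⟨j, g, hg0, hpu⟩ := pu_of_isRedInf hq hA hE hw hV hqm hMN hb' hc hs hs0 hy'
  have hov := fricke_hov W hV₀
  refine ⟨j, W.symm g, (map_ne_zero_iff _ W.symm.injective).2 hg0, ?_⟩
  rw [← Fermat.Agent.S36.H586.over_pu hov]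
  have e : (W : Mod.FE E N →+* Mod.FE E N)
      (y / (b * (Mod.cE A E N w ^ j * W.symm g ^ m)))
      = W y / (W b * (Mod.cE A E N w ^ j * g ^ m)) := by
    rw [map_div₀, map_mul, map_mul, map_zpow₀, map_pow, fricke_cE]
    show W y / (W b * (Mod.cE A E N w ^ j * W (W.symm g) ^ m)) = _
    rw [W.apply_symm_apply]
  rw [e]
  exact hpu

end B

/-! ## (C) the body of `RSurjAt` -/

section C

variable {A : ValuationSubring Q̄} {E : IntermediateField ℚ Q̄} {N : ℕ} [NeZero N]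

/-- `m ∣ div` is stable under division by `w ^ j · G ^ m`. -/
theorem divisibleDiv_div_unif_pow {m : ℕ} {y : Mod.FE E N} (hy : DivisibleDiv E m y)
    (w : Mod.RE A E) (hw0 : Mod.cE A E N w ≠ 0) (j : ℤ) {G : Mod.FE E N} (hG : G ≠ 0) :
    DivisibleDiv E m (y / (Mod.cE A E N w ^ j * G ^ m)) := by
  intro V hV hEV
  obtain ⟨h, u, hh, hu, hu', e⟩ := hy V hV hEV
  have hc : Mod.cE A E N w ^ j = algebraMap E (Mod.FE E N) ((w : E) ^ j) := by
    rw [map_zpow₀]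
    rfl
  have hcinv : (Mod.cE A E N w ^ j)⁻¹ = algebraMap E (Mod.FE E N) (((w : E) ^ j)⁻¹) := by
    rw [hc, map_inv₀]
  have hwj : Mod.cE A E N w ^ j ≠ 0 := zpow_ne_zero _ hw0
  refine ⟨h * G⁻¹, u * (Mod.cE A E N w ^ j)⁻¹, mul_ne_zero hh (inv_ne_zero hG),
    V.mul_mem _ _ hu (by rw [hcinv]; exact hEV _), ?_, ?_⟩
  · rw [mul_inv, inv_inv]
    exact V.mul_mem _ _ hu' (by rw [hc]; exact hEV _)
  · rw [e, mul_pow, inv_pow]
    have hGm : G ^ m ≠ 0 := pow_ne_zero _ hG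
    field_simp

/-- **(C) SURJ-E at one residue.**  `V = V∞`, `V₀ = V∞ ∘ W` at a good level `E`; `b` a unit of
`V₀` with reduction `ρ` on the `0`-component; `y ∈ F_E(N)` with `m ∣ div y`, whose reductions are
`r₁ = c₁ s₁ ^ m` on the `∞`-component and `r₂ = c₂ ρ s₂ ^ m` on the `0`-component
(`s_i ∈ k(X₀(M))`, `M ∣ N`), and whose slope vanishes modulo `m`.  Then
`g = y / (w ^ j G ^ m)` satisfies `m ∣ div g`, `g ≡ 1` on `V∞`, `g ≡ b` on `V₀`. -/
theorem rSurjAt_of_gen {q : ℕ} (hq : q.Prime) (hA : A.LiesOverPrime q)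
    (hE : GoodField A E) {w : Mod.RE A E} (hw : Irreducible w)
    {V V₀ : ValuationSubring (Mod.FE E N)} (hV : Mod.IsVinf A E N V)
    {W : Mod.FE E N ≃ₐ[E] Mod.FE E N} (hW : Mod.IsFricke E N W)
    (hV₀ : V₀ = V.comap (W : Mod.FE E N →+* Mod.FE E N))
    (hdvr : IsDiscreteValuationRing V) (hdvr₀ : IsDiscreteValuationRing V₀) (h12 : V ≠ V₀)
    {m : ℕ} (hm : 0 < m) (hqm : ¬ q ∣ m) {M : ℕ} (hMN : M ∣ N)
    {b : Mod.FE E N} (hb : V₀.valuation b = 1) {ρ : LaurentSeries (kA A)}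
    (hρ : IsRedZero N A (iota E (modularFunctionFieldFull N) b) ρ)
    {y : Mod.FE E N} (hyD : DivisibleDiv E m y) {r₁ r₂ : LaurentSeries (kA A)}
    (h₁ : IsRedInf N A (iota E (modularFunctionFieldFull N) y) r₁)
    (h₂ : IsRedZero N A (iota E (modularFunctionFieldFull N) y) r₂)
    (hr₁ : ∃ (c : kA A) (s : modularFunctionFieldFullC (kA A) M), c ≠ 0 ∧ s ≠ 0 ∧
      r₁ = HahnSeries.C c * (s : LaurentSeries (kA A)) ^ m)
    (hr₂ : ∃ (c : kA A) (s : modularFunctionFieldFullC (kA A) M), c ≠ 0 ∧ s ≠ 0 ∧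
      r₂ = HahnSeries.C c * ρ * (s : LaurentSeries (kA A)) ^ m)
    (hslope : ∃ a₁ a₂ : ℤ, UnitAt V (y * (Mod.cE A E N w ^ a₁)⁻¹) ∧
      UnitAt V₀ (y * (Mod.cE A E N w ^ a₂)⁻¹) ∧ (m : ℤ) ∣ a₁ - a₂) :
    ∃ (j : ℤ) (G : Mod.FE E N), G ≠ 0 ∧
      DivisibleDiv E m (y / (Mod.cE A E N w ^ j * G ^ m)) ∧
      y / (Mod.cE A E N w ^ j * G ^ m) - 1 ∈ V.nonunits ∧
      y / (Mod.cE A E N w ^ j * G ^ m) / b - 1 ∈ V₀.nonunits := by
  haveI := hdvr
  haveI := hdvr₀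
  have hU := unifAt_vinf hE.dvr hw hV
  have hU₀ := unifAt_vzero hE.dvr hw hV W hV₀
  have hw0 := hU.1
  have hlt : V.valuation (Mod.cE A E N w) < 1 := (ValuationSubring.mem_nonunits_iff V).1 hU.2.1
  have hlt₀ : V₀.valuation (Mod.cE A E N w) < 1 :=
    (ValuationSubring.mem_nonunits_iff V₀).1 hU₀.2.1
  obtain ⟨c₁, s₁, hc₁, hs₁, rfl⟩ := hr₁
  obtain ⟨c₂, s₂, hc₂, hs₂, rfl⟩ := hr₂
  have hs₁0 : (s₁ : LaurentSeries (kA A)) ≠ 0 := fun h => hs₁ (Subtype.ext h)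
  have hs₂0 : (s₂ : LaurentSeries (kA A)) ≠ 0 := fun h => hs₂ (Subtype.ext h)
  -- at `V∞`
  have h₁' : IsRedInf N A (iota E (modularFunctionFieldFull N) y)
      (HahnSeries.C c₁ * 1 * (s₁ : LaurentSeries (kA A)) ^ m) := by
    rw [mul_one]
    exact h₁
  have hone : IsRedInf N A (iota E (modularFunctionFieldFull N) (1 : Mod.FE E N)) 1 := by
    rw [map_one]
    exact isRedInf_one
  obtain ⟨j₁, g₁, hg₁, hpu₁⟩ :=
    pu_of_isRedInf hq hA hE hw hV hqm hMN hone hc₁ s₁.2 hs₁0 h₁'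
  rw [one_mul] at hpu₁
  -- at `V₀`
  obtain ⟨j₂, g₂, hg₂, hpu₂⟩ :=
    pu_of_isRedZero hq hA hE hw hV hW hV₀ hqm hMN hρ hc₂ s₂.2 hs₂0 h₂
  -- the slope
  obtain ⟨a₁, a₂, hu₁, hu₂, hdvd⟩ := hslope
  have hord : ∀ {O : ValuationSubring (Mod.FE E N)} {a : ℤ},
      UnitAt O (y * (Mod.cE A E N w ^ a)⁻¹) → IsOrd O (Mod.cE A E N w) y a := by
    intro O a hu
    have h1 := Fermat.Agent.S36.H586.unitAt_iff.1 hu
    rw [map_mul, map_inv₀, map_zpow₀] at h1
    have h2 : O.valuation (Mod.cE A E N w) ^ a ≠ 0 :=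
      zpow_ne_zero _ ((Valuation.ne_zero_iff _).2 hw0)
    unfold IsOrd
    rw [mul_inv_eq_one₀ h2] at h1
    exact h1
  have hsl : ∀ b₁ b₂ : ℤ, IsOrd V (Mod.cE A E N w) y b₁ → IsOrd V₀ (Mod.cE A E N w) y b₂ →
      (m : ℤ) ∣ b₂ - b₁ := by
    intro b₁ b₂ hb₁ hb₂
    have e₁ : b₁ = a₁ := Fermat.Agent.S36.H586.IsOrd.unique hw0 hlt hb₁ (hord hu₁)
    have e₂ : b₂ = a₂ := Fermat.Agent.S36.H586.IsOrd.unique hw0 hlt₀ hb₂ (hord hu₂)
    rw [e₁, e₂]
    have : a₂ - a₁ = -(a₁ - a₂) := by ring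
    rw [this]
    exact (dvd_neg).2 hdvd
  obtain ⟨G, hG0, hG₁, hG₂⟩ := surj_core V V₀ h12 hU hU₀ hm hg₁ hg₂ hb hpu₁ hpu₂ hsl
  exact ⟨j₁, G, hG0, divisibleDiv_div_unif_pow hyD w hw0 j₁ hG0,
    Fermat.Agent.S36.H586.pu_iff.1 hG₁, Fermat.Agent.S36.H586.pu_iff.1 hG₂⟩

end C

/-! ## (D) class form and assembly -/

section D

open Fermat.Agent.Ribet.H158.WallQ (PPowSeries)

variable {A : ValuationSubring Q̄} {E : IntermediateField ℚ Q̄} {M q : ℕ} [NeZero M] [NeZero q]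
  {N : ℕ} [NeZero N]

/-- REDFIELD at a level `N = M q`: the reductions on `C∞` lie in `k(X₀(M))`. -/
theorem redInf_mem_fullC (hN : N = M * q) (hq : q.Prime) (hqM : ¬ q ∣ M)
    (hA : A.LiesOverPrime q) {G : FF N} {s : LaurentSeries (kA A)} (h : IsRedInf N A G s) :
    s ∈ modularFunctionFieldFullC (kA A) M := by
  subst hN
  exact Fermat.Agent.Ribet.H997.isRedSer_mem_of_level_mul hq hqM hA G.2 h

/-- The slope of `y ∈ F_E(N)` along `(V, V₀)` vanishes modulo `m` (the body of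
`LoSqC.SlopeZero w m V V₀ y` of the cell Spec, `w` seen in `F_E(N)`). -/
def SlopeZeroE (A : ValuationSubring Q̄) (E : IntermediateField ℚ Q̄) (N : ℕ) (w : Mod.RE A E)
    (m : ℕ) (V V₀ : ValuationSubring (Mod.FE E N)) (y : Mod.FE E N) : Prop :=
  ∃ a₁ a₂ : ℤ, UnitAt V (y * (Mod.cE A E N w ^ a₁)⁻¹) ∧
    UnitAt V₀ (y * (Mod.cE A E N w ^ a₂)⁻¹) ∧ (m : ℤ) ∣ a₁ - a₂

/-- **SURJ-E, class form.**  A class `x ∈ J₀(N)`, `N = M q`, with a Kummer generator `f` over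
`ℚ̄` of reductions `r₁ ∈ kˣ · (k(X₀(M))ˣ)^m` and `r₂ = c · ρ · s ^ m` (`ρ` a reduction of `b` on
the `0`-component) and with an `E`-rational Kummer generator `y` of slope `0` modulo `m`:
then `g = y / (w ^ j G ^ m)` has `m ∣ div g`, `g ≡ 1` on `V∞`, `g ≡ b` on `V₀`. -/
theorem rSurjAt_of_class (hN : N = M * q) (hq : q.Prime) (hqM : ¬ q ∣ M)
    (hA : A.LiesOverPrime q) (hE : GoodField A E) {w : Mod.RE A E} (hw : Irreducible w)
    {V V₀ : ValuationSubring (Mod.FE E N)} (hV : Mod.IsVinf A E N V)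
    {W : Mod.FE E N ≃ₐ[E] Mod.FE E N} (hW : Mod.IsFricke E N W)
    (hV₀ : V₀ = V.comap (W : Mod.FE E N →+* Mod.FE E N))
    (hdvr : IsDiscreteValuationRing V) (hdvr₀ : IsDiscreteValuationRing V₀) (h12 : V ≠ V₀)
    {m : ℕ} (hm : 0 < m) (hqm : ¬ q ∣ m)
    {b : Mod.FE E N} (hb : V₀.valuation b = 1) {ρ : LaurentSeries (kA A)}
    (hρ : IsRedZero N A (iota E (modularFunctionFieldFull N) b) ρ)
    {x : JZero N} {f : FF N} (hf : IsKummerGen N m f x) {r₁ r₂ : LaurentSeries (kA A)}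
    (h₁ : IsRedInf N A f r₁) (h₂ : IsRedZero N A f r₂)
    (hr₁ : PPowSeries m M r₁)
    (hr₂ : ∃ (c : kA A) (s : modularFunctionFieldFullC (kA A) M), c ≠ 0 ∧ s ≠ 0 ∧
      r₂ = HahnSeries.C c * ρ * (s : LaurentSeries (kA A)) ^ m)
    {y : Mod.FE E N} (hy : IsKummerGen N m (iota E (modularFunctionFieldFull N) y) x)
    (hslope : SlopeZeroE A E N w m V V₀ y) :
    ∃ (j : ℤ) (G : Mod.FE E N), G ≠ 0 ∧
      DivisibleDiv E m (y / (Mod.cE A E N w ^ j * G ^ m)) ∧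
      y / (Mod.cE A E N w ^ j * G ^ m) - 1 ∈ V.nonunits ∧
      y / (Mod.cE A E N w ^ j * G ^ m) / b - 1 ∈ V₀.nonunits := by
  obtain ⟨c, G, hc, hG, hyf⟩ := Fermat.Agent.Ribet.H698.RedMap.kummer_ratio hf hy
  obtain ⟨s₁, hs₁⟩ := Fermat.Agent.Ribet.H997.exists_isRedInf hq hA hG
  have hwG : wF N G ≠ 0 := by
    intro h
    exact hG ((map_eq_zero_iff _ (wF N).injective).1 h)
  obtain ⟨s₂, hs₂⟩ := Fermat.Agent.Ribet.H997.exists_isRedInf (N := N) hq hA hwG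
  have hs₁m := redInf_mem_fullC hN hq hqM hA hs₁
  have hs₂m := redInf_mem_fullC hN hq hqM hA hs₂
  have hs₁0 : s₁ ≠ 0 := hs₁.ne_zero
  have hs₂0 : s₂ ≠ 0 := hs₂.ne_zero
  have h₁' : IsRedInf N A (iota E (modularFunctionFieldFull N) y) (r₁ * s₁ ^ m) := by
    rw [hyf]
    exact (IsRedInf.const_mul h₁ hc).mul (IsRedInf.pow hs₁ m)
  have h₂' : IsRedZero N A (iota E (modularFunctionFieldFull N) y) (r₂ * s₂ ^ m) := by
    rw [hyf]
    exact (IsRedZero.const_mul h₂ hc).mul (IsRedZero.pow (f := G) hs₂ m)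
  have hy0 : y ≠ 0 := by
    rintro rfl
    rw [map_zero] at hy
    exact hy.1 rfl
  have hyD : DivisibleDiv E m y := by
    obtain ⟨-, D, -, hD⟩ := hy
    refine Fermat.Agent.A2.T1.H669.divisibleDiv_of_ord E (modularFunctionFieldFull N) m y hy0
      fun v => ?_
    rw [hD v]
    exact dvd_mul_right _ _
  have hMN : M ∣ N := hN ▸ dvd_mul_right M q
  refine rSurjAt_of_gen hq hA hE hw hV hW hV₀ hdvr hdvr₀ h12 hm hqm hMN hb hρ hyD h₁' h₂' ?_ ?_
    hslope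
  · obtain ⟨c₁, t₁, hc₁, ht₁, rfl⟩ := hr₁
    refine ⟨c₁, t₁ * ⟨s₁, hs₁m⟩, hc₁, mul_ne_zero ht₁ (fun h => hs₁0 (congrArg Subtype.val h)),
      ?_⟩
    rw [IntermediateField.coe_mul, mul_pow]
    ring
  · obtain ⟨c₂, t₂, hc₂, ht₂, rfl⟩ := hr₂
    refine ⟨c₂, t₂ * ⟨s₂, hs₂m⟩, hc₂, mul_ne_zero ht₂ (fun h => hs₂0 (congrArg Subtype.val h)),
      ?_⟩
    rw [IntermediateField.coe_mul, mul_pow]
    ring

/-- **The `J`-form input of SURJ-E** (what W-COUNT delivers: `H296.kummerGen_of_rSurjJ_one` at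
the classes of slope `0`): for every `ρ ∈ k(X₀(M))` with `m ∣ div ρ` there is a class with a
Kummer generator of reductions `(c₁ s₁ ^ m, c₂ ρ s₂ ^ m)` and with an `E`-rational Kummer
generator of slope `0` modulo `m`. -/
def SurjJ (A : ValuationSubring Q̄) (E : IntermediateField ℚ Q̄) (m M N : ℕ) [NeZero N]
    (w : Mod.RE A E) (V V₀ : ValuationSubring (Mod.FE E N)) : Prop :=
  ∀ ρ : LaurentSeries (kA A), PDivSeries m M ρ →
    ∃ (x : JZero N) (f : FF N) (r₁ r₂ : LaurentSeries (kA A)) (y : Mod.FE E N),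
      IsKummerGen N m f x ∧ IsRedInf N A f r₁ ∧ IsRedZero N A f r₂ ∧ PPowSeries m M r₁ ∧
      (∃ (c : kA A) (s : modularFunctionFieldFullC (kA A) M), c ≠ 0 ∧ s ≠ 0 ∧
        r₂ = HahnSeries.C c * ρ * (s : LaurentSeries (kA A)) ^ m) ∧
      IsKummerGen N m (iota E (modularFunctionFieldFull N) y) x ∧
      SlopeZeroE A E N w m V V₀ y

/-- `SurjJ` from the output of `H296.kummerGen_of_rSurjJ_one` on a subgroup `I` all of whose
classes have an `E`-rational Kummer generator of slope `0`. -/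
theorem surjJ_of_gen {m : ℕ} {w : Mod.RE A E} {V V₀ : ValuationSubring (Mod.FE E N)}
    (I : AddSubgroup (JZero N))
    (hI : ∀ x ∈ I, ∃ y : Mod.FE E N,
      IsKummerGen N m (iota E (modularFunctionFieldFull N) y) x ∧
        SlopeZeroE A E N w m V V₀ y)
    (hJ : ∀ ρ : LaurentSeries (kA A), PDivSeries m M ρ →
      ∃ x ∈ I, ∃ (f : FF N) (r₁ r₂ : LaurentSeries (kA A)),
        IsKummerGen N m f x ∧ IsRedInf N A f r₁ ∧ IsRedZero N A f r₂ ∧ PPowSeries m M r₁ ∧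
        (∃ (c : kA A) (s : modularFunctionFieldFullC (kA A) M), c ≠ 0 ∧ s ≠ 0 ∧
          r₂ = HahnSeries.C c * ρ * (s : LaurentSeries (kA A)) ^ m)) :
    SurjJ A E m M N w V V₀ := by
  intro ρ hρ
  obtain ⟨x, hx, f, r₁, r₂, hf, h₁, h₂, hr₁, hr₂⟩ := hJ ρ hρ
  obtain ⟨y, hy, hsl⟩ := hI x hx
  exact ⟨x, f, r₁, r₂, y, hf, h₁, h₂, hr₁, hr₂, hy, hsl⟩

/-- `SurjJ` on a subgroup `I` of inertia-fixed `m`-torsion classes ALL of whose `E`-rational
Kummer generators have slope `0` (`E ⊇ ℚ̄^{I_A}`; the generator exists by descent). -/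
theorem surjJ_of_fixed {m : ℕ} {w : Mod.RE A E} {V V₀ : ValuationSubring (Mod.FE E N)}
    (hEI : inertiaField A ≤ E) (I : AddSubgroup (JZero N))
    (hI : ∀ x ∈ I, m • x = 0 ∧ (∀ σ ∈ A.inertiaSubgroupIn ℚ, σ • x = x) ∧
      ∀ y : Mod.FE E N, IsKummerGen N m (iota E (modularFunctionFieldFull N) y) x →
        SlopeZeroE A E N w m V V₀ y)
    (hJ : ∀ ρ : LaurentSeries (kA A), PDivSeries m M ρ →
      ∃ x ∈ I, ∃ (f : FF N) (r₁ r₂ : LaurentSeries (kA A)),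
        IsKummerGen N m f x ∧ IsRedInf N A f r₁ ∧ IsRedZero N A f r₂ ∧ PPowSeries m M r₁ ∧
        (∃ (c : kA A) (s : modularFunctionFieldFullC (kA A) M), c ≠ 0 ∧ s ≠ 0 ∧
          r₂ = HahnSeries.C c * ρ * (s : LaurentSeries (kA A)) ^ m)) :
    SurjJ A E m M N w V V₀ := by
  refine surjJ_of_gen I (fun x hx => ?_) hJ
  obtain ⟨hmx, hfix, hsl⟩ := hI x hx
  obtain ⟨y₀, -, hyK₀, -⟩ := Fermat.Agent.Ribet.H868.exists_fixed_kummerGen N m A x hmx hfix
  obtain ⟨y, hy⟩ := exists_iota_up N hEI y₀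
  have hyK : IsKummerGen N m (iota E (modularFunctionFieldFull N) y) x := by
    rw [hy]
    exact hyK₀
  exact ⟨y, hyK, hsl y hyK⟩

/-- **SURJ-E (assembly) = the body of `H987.RSurj1E`.**  `C b` is the admissibility of the
residue `b` (in the application `H987.CondW (RE A E) m V₀ b`); `hCond` is the dictionary
COND-PDIV (`C b` ⟹ the reduction of `b` on the `0`-component has `m`-divisible divisor).
The conclusion is `H987.RSurjAt (E := E) m V V₀ b`, unfolded (with `h = 1`). -/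
theorem rSurj1E_of_surjJ (hN : N = M * q) (hq : q.Prime) (hqM : ¬ q ∣ M)
    (hA : A.LiesOverPrime q) (hE : GoodField A E) {w : Mod.RE A E} (hw : Irreducible w)
    {V V₀ : ValuationSubring (Mod.FE E N)} (hV : Mod.IsVinf A E N V)
    {W : Mod.FE E N ≃ₐ[E] Mod.FE E N} (hW : Mod.IsFricke E N W)
    (hV₀ : V₀ = V.comap (W : Mod.FE E N →+* Mod.FE E N))
    (hdvr : IsDiscreteValuationRing V) (hdvr₀ : IsDiscreteValuationRing V₀) (h12 : V ≠ V₀)
    {m : ℕ} (hm : 0 < m) (hqm : ¬ q ∣ m)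
    (hJ : SurjJ A E m M N w V V₀)
    (C : Mod.FE E N → Prop)
    (hCond : ∀ b : Mod.FE E N, V₀.valuation b = 1 → C b →
      ∃ ρ : LaurentSeries (kA A),
        IsRedZero N A (iota E (modularFunctionFieldFull N) b) ρ ∧ PDivSeries m M ρ) :
    ∀ b : Mod.FE E N, V₀.valuation b = 1 → C b →
      ∃ g h : Mod.FE E N, DivisibleDiv E m g ∧ g - 1 ∈ V.nonunits ∧ V₀.valuation h = 1 ∧
        g / (b * h ^ m) - 1 ∈ V₀.nonunits := by
  intro b hb hCb
  obtain ⟨ρ, hρ, hρd⟩ := hCond b hb hCb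
  obtain ⟨x, f, r₁, r₂, y, hf, h₁, h₂, hr₁, hr₂, hy, hsl⟩ := hJ ρ hρd
  obtain ⟨j, G, hG0, hD, hg₁, hg₂⟩ := rSurjAt_of_class hN hq hqM hA hE hw hV hW hV₀ hdvr hdvr₀
    h12 hm hqm hb hρ hf h₁ h₂ hr₁ hr₂ hy hsl
  refine ⟨y / (Mod.cE A E N w ^ j * G ^ m), 1, hD, hg₁, map_one _, ?_⟩
  rw [one_pow, mul_one]
  exact hg₂

end D

end Fermat.Agent.S59.LoSqC.H27

end
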